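import Mathlib

/-!
# Row LT, tower T6, leaf T6.16 (`SplitMatchC`) -- helper863, OFF-MAIN

Part 1: sums over systems of representatives of an equivalence relation (pure combinatorics).

* `sum_reps_eq_863` : the sum of a class function over a system of representatives covering its
  support does not depend on the system;
* `exists_reps_863` : every finite set contains a system of representatives of itself.

Mathlib only; every proof is complete.
-/

set_option autoImplicit false

open scoped Classical

noncomputable section

namespace Fermat.Agent.LT.T6.H863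

variable {α : Type*}

/-- `R` is a system of pairwise inequivalent elements. -/
def IsIneq863 (r : α → α → Prop) (R : Finset α) : Prop :=
  ∀ a ∈ R, ∀ b ∈ R, r a b → a = b

/-- `R` covers the support of `F` up to equivalence. -/
def Covers863 (r : α → α → Prop) (F : α → ℂ) (R : Finset α) : Prop :=
  ∀ a : α, F a ≠ 0 → ∃ b ∈ R, r a b

theorem IsIneq863.subset {r : α → α → Prop} {R R' : Finset α} (h : IsIneq863 r R)
    (hs : R' ⊆ R) : IsIneq863 r R' :=
  fun a ha b hb hab => h a (hs ha) b (hs hb) hab

/-- **Independence of the representatives.**  `r` an equivalence relation, `F` a class function,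
`R₁`, `R₂` two systems of pairwise inequivalent elements, both covering the support of `F`. -/
theorem sum_reps_eq_863 (r : α → α → Prop) (hr : Equivalence r) (F : α → ℂ)
    (hF : ∀ a b, r a b → F a = F b) (R₁ R₂ : Finset α)
    (h₁ : IsIneq863 r R₁) (h₂ : IsIneq863 r R₂)
    (c₁ : Covers863 r F R₁) (c₂ : Covers863 r F R₂) :
    ∑ a ∈ R₁, F a = ∑ a ∈ R₂, F a := by
  rw [← Finset.sum_filter_ne_zero (s := R₁), ← Finset.sum_filter_ne_zero (s := R₂)]
  have key : ∀ a ∈ R₁.filter (fun a => F a ≠ 0), ∃ b ∈ R₂, r a b := by
    intro a ha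
    exact c₂ a (Finset.mem_filter.mp ha).2
  have key' : ∀ b ∈ R₂.filter (fun a => F a ≠ 0), ∃ a ∈ R₁, r b a := by
    intro b hb
    exact c₁ b (Finset.mem_filter.mp hb).2
  refine Finset.sum_bij' (fun a ha => Classical.choose (key a ha))
    (fun b hb => Classical.choose (key' b hb)) ?_ ?_ ?_ ?_ ?_
  · intro a ha
    obtain ⟨hb, hab⟩ := Classical.choose_spec (key a ha)
    refine Finset.mem_filter.mpr ⟨hb, ?_⟩
    rw [← hF _ _ hab]
    exact (Finset.mem_filter.mp ha).2
  · intro b hb
    obtain ⟨ha, hba⟩ := Classical.choose_spec (key' b hb)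
    refine Finset.mem_filter.mpr ⟨ha, ?_⟩
    rw [← hF _ _ hba]
    exact (Finset.mem_filter.mp hb).2
  · intro a ha
    obtain ⟨hb, hab⟩ := Classical.choose_spec (key a ha)
    have hb' : Classical.choose (key a ha) ∈ R₂.filter (fun a => F a ≠ 0) := by
      refine Finset.mem_filter.mpr ⟨hb, ?_⟩
      rw [← hF _ _ hab]
      exact (Finset.mem_filter.mp ha).2
    obtain ⟨ha', hba⟩ := Classical.choose_spec (key' _ hb')
    exact h₁ _ ha' _ (Finset.mem_filter.mp ha).1 (hr.symm (hr.trans hab hba))
  · intro b hb
    obtain ⟨ha, hba⟩ := Classical.choose_spec (key' b hb)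
    have ha' : Classical.choose (key' b hb) ∈ R₁.filter (fun a => F a ≠ 0) := by
      refine Finset.mem_filter.mpr ⟨ha, ?_⟩
      rw [← hF _ _ hba]
      exact (Finset.mem_filter.mp hb).2
    obtain ⟨hb', hab⟩ := Classical.choose_spec (key _ ha')
    exact h₂ _ hb' _ (Finset.mem_filter.mp hb).1 (hr.symm (hr.trans hba hab))
  · intro a ha
    obtain ⟨-, hab⟩ := Classical.choose_spec (key a ha)
    exact hF _ _ hab

/-- Every finite set contains a system of pairwise inequivalent elements covering it. -/
theorem exists_reps_863 (r : α → α → Prop) (hr : Equivalence r) (E : Finset α) :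
    ∃ H : Finset α, H ⊆ E ∧ IsIneq863 r H ∧ ∀ e ∈ E, ∃ h ∈ H, r e h := by
  induction E using Finset.induction_on with
  | empty => exact ⟨∅, Finset.Subset.refl _, fun a ha => by simp at ha, fun e he => by simp at he⟩
  | insert x E hx ih =>
    obtain ⟨H, hHE, hH, hcov⟩ := ih
    by_cases hex : ∃ h ∈ H, r x h
    · refine ⟨H, hHE.trans (Finset.subset_insert _ _), hH, fun e he => ?_⟩
      rcases Finset.mem_insert.mp he with rfl | he
      · exact hex
      · exact hcov e he
    · refine ⟨insert x H, Finset.insert_subset_insert _ hHE, ?_, fun e he => ?_⟩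
      · intro a ha b hb hab
        rcases Finset.mem_insert.mp ha with hax | haH
        · rcases Finset.mem_insert.mp hb with hbx | hbH
          · rw [hax, hbx]
          · exact absurd ⟨b, hbH, hax ▸ hab⟩ hex
        · rcases Finset.mem_insert.mp hb with hbx | hbH
          · exact absurd ⟨a, haH, hbx ▸ hr.symm hab⟩ hex
          · exact hH a haH b hbH hab
      · rcases Finset.mem_insert.mp he with rfl | he
        · exact ⟨e, Finset.mem_insert_self _ _, hr.refl e⟩
        · obtain ⟨h, hh, heh⟩ := hcov e he
          exact ⟨h, Finset.mem_insert_of_mem hh, heh⟩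

end Fermat.Agent.LT.T6.H863

end
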