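import Mathlib
import Fermat.Agent.LT.T6.Spec

/-!
# Row LT, tower T6, leaf T6.16 (`SplitMatchC`) -- helper863, OFF-MAIN

Part 2: the twisted norm on `G^l` with the cyclic shift.

* `twN_conj_863`  : `N_n (x⁻¹ δ s(x)) = x⁻¹ (N_n δ) sⁿ(x)`;
* `twN_succ_right_863` : `N_{n+1} δ = N_n δ · sⁿ(δ)`;
* `pq863 y j = y_0 y_1 ⋯ y_{j-1}` (partial products), `nm863 y = y_0 ⋯ y_{l-1}` (the norm);
* `tw_unique_863` : `y' = x⁻¹ y s(x)` determines `x` from `x 0`;
* `tw_exists_863` : `N y' = g⁻¹ (N y) g` gives `x` with `x 0 = g`, `y' = x⁻¹ y s(x)`.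

Mathlib + `T6/Spec.lean` (frozen) only; every proof is complete.
-/

set_option autoImplicit false

noncomputable section

namespace Fermat.Agent.LT.T6.H863

open Fermat.Agent.LT.T6

section General

variable {Γ : Type} [Group Γ]

theorem twN_zero_863 (s : Γ →* Γ) (δ : Γ) : twN s 0 δ = 1 := rfl

theorem twN_succ_863 (s : Γ →* Γ) (n : ℕ) (δ : Γ) : twN s (n + 1) δ = δ * s (twN s n δ) := rfl

theorem twN_one_863 (s : Γ →* Γ) (δ : Γ) : twN s 1 δ = δ := by
  rw [twN_succ_863, twN_zero_863, map_one, mul_one]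

/-- `N_n (x⁻¹ δ s(x)) = x⁻¹ (N_n δ) sⁿ(x)`. -/
theorem twN_conj_863 (s : Γ →* Γ) (n : ℕ) (x δ : Γ) :
    twN s n (x⁻¹ * δ * s x) = x⁻¹ * twN s n δ * (s^[n]) x := by
  induction n with
  | zero => simp [twN_zero_863]
  | succ n ih =>
    rw [twN_succ_863, ih, twN_succ_863, Function.iterate_succ_apply']
    simp only [map_mul, map_inv]
    group

/-- `N_{n+1} δ = N_n δ · sⁿ(δ)`. -/
theorem twN_succ_right_863 (s : Γ →* Γ) (n : ℕ) (δ : Γ) :
    twN s (n + 1) δ = twN s n δ * (s^[n]) δ := by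
  induction n with
  | zero => simp [twN_succ_863, twN_zero_863]
  | succ n ih =>
    have h1 : twN s (n + 1 + 1) δ = δ * s (twN s (n + 1) δ) := rfl
    have h2 : twN s (n + 1) δ = δ * s (twN s n δ) := rfl
    rw [h1, ih, map_mul, ← mul_assoc, ← h2, Function.iterate_succ_apply', ih]

end General

section Shift

variable {G : Type} [Group G]

/-- The cyclic shift of `G^l`: `(s x)_j = x_{j+1}`. -/
def shift863 (l : ℕ) [NeZero l] : (Fin l → G) →* (Fin l → G) where
  toFun x := fun j => x (j + 1)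
  map_one' := rfl
  map_mul' _ _ := rfl

theorem shift863_apply (l : ℕ) [NeZero l] (x : Fin l → G) (j : Fin l) :
    shift863 l x j = x (j + 1) := rfl

theorem shift863_iterate (l : ℕ) [NeZero l] (n : ℕ) (x : Fin l → G) (j : Fin l) :
    ((shift863 l)^[n]) x j = x (j + Fin.ofNat l n) := by
  induction n generalizing j with
  | zero =>
    have : Fin.ofNat l 0 = 0 := rfl
    simp
  | succ n ih =>
    rw [Function.iterate_succ_apply', shift863_apply, ih]
    congr 1
    rw [add_assoc]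
    congr 1
    apply Fin.ext
    rw [Fin.val_add]
    simp [Fin.ofNat, Nat.add_comm]

theorem shift863_iterate_self (l : ℕ) [NeZero l] (x : Fin l → G) :
    ((shift863 l)^[l]) x = x := by
  funext j
  rw [shift863_iterate]
  congr 1
  have : Fin.ofNat l l = 0 := by
    apply Fin.ext
    simp [Fin.ofNat]
  rw [this, add_zero]

/-- The partial product `y_0 y_1 ⋯ y_{j-1}`. -/
def pq863 {l : ℕ} [NeZero l] (y : Fin l → G) (j : ℕ) : G := twN (shift863 l) j y 0

/-- The norm `y_0 y_1 ⋯ y_{l-1}`. -/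
def nm863 {l : ℕ} [NeZero l] (y : Fin l → G) : G := pq863 y l

theorem pq863_zero {l : ℕ} [NeZero l] (y : Fin l → G) : pq863 y 0 = 1 := rfl

theorem pq863_succ {l : ℕ} [NeZero l] (y : Fin l → G) (j : ℕ) :
    pq863 y (j + 1) = pq863 y j * y (Fin.ofNat l j) := by
  unfold pq863
  rw [twN_succ_right_863, Pi.mul_apply, shift863_iterate, zero_add]

/-- `q_j (x⁻¹ y s(x)) = x_0⁻¹ q_j(y) x_j`. -/
theorem pq863_conj {l : ℕ} [NeZero l] (x y : Fin l → G) (j : ℕ) :
    pq863 (x⁻¹ * y * shift863 l x) j = (x 0)⁻¹ * pq863 y j * x (Fin.ofNat l j) := by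
  unfold pq863
  rw [twN_conj_863, Pi.mul_apply, Pi.mul_apply, Pi.inv_apply, shift863_iterate, zero_add]

/-- `N (x⁻¹ y s(x)) = x_0⁻¹ N(y) x_0`. -/
theorem nm863_conj {l : ℕ} [NeZero l] (x y : Fin l → G) :
    nm863 (x⁻¹ * y * shift863 l x) = (x 0)⁻¹ * nm863 y * x 0 := by
  unfold nm863
  rw [pq863_conj]
  congr 2
  apply Fin.ext
  simp [Fin.ofNat]

/-- A twisted conjugator is determined by its component at `0`. -/
theorem tw_unique_863 {l : ℕ} [NeZero l] (x y y' : Fin l → G)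
    (h : y' = x⁻¹ * y * shift863 l x) (j : ℕ) :
    x (Fin.ofNat l j) = (pq863 y j)⁻¹ * x 0 * pq863 y' j := by
  rw [h, pq863_conj]
  group

theorem tw_unique_fin_863 {l : ℕ} [NeZero l] (x y y' : Fin l → G)
    (h : y' = x⁻¹ * y * shift863 l x) (j : Fin l) :
    x j = (pq863 y (j : ℕ))⁻¹ * x 0 * pq863 y' (j : ℕ) := by
  have := tw_unique_863 x y y' h (j : ℕ)
  have hj : Fin.ofNat l (j : ℕ) = j := by
    apply Fin.ext
    simp [Fin.ofNat, Nat.mod_eq_of_lt j.2]
  rw [hj] at this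
  exact this

omit [Group G] in
/-- For a sequence `X` with `X l = X 0`: `X ((j + 1 : Fin l) : ℕ) = X (j + 1)`. -/
theorem wrap863 {l : ℕ} [NeZero l] (X : ℕ → G) (hX : X l = X 0) (j : Fin l) :
    X ((j + 1 : Fin l) : ℕ) = X ((j : ℕ) + 1) := by
  have hl : 0 < l := Nat.pos_of_ne_zero (NeZero.ne l)
  have hj : (j : ℕ) < l := j.2
  have hval : ((j + 1 : Fin l) : ℕ) = ((j : ℕ) + 1) % l := by
    rw [Fin.val_add]
    by_cases h1 : l = 1
    · subst h1
      simp
    · have : ((1 : Fin l) : ℕ) = 1 := by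
        rw [Fin.val_one']
        exact Nat.mod_eq_of_lt (by omega)
      rw [this]
  rw [hval]
  by_cases hlt : (j : ℕ) + 1 < l
  · rw [Nat.mod_eq_of_lt hlt]
  · have : (j : ℕ) + 1 = l := by omega
    rw [this, Nat.mod_self, hX]

/-- **Existence of the twisted conjugator.** -/
theorem tw_exists_863 {l : ℕ} [NeZero l] (y y' : Fin l → G) (g : G)
    (h : nm863 y' = g⁻¹ * nm863 y * g) :
    ∃ x : Fin l → G, x 0 = g ∧ y' = x⁻¹ * y * shift863 l x := by
  set X : ℕ → G := fun i => (pq863 y i)⁻¹ * g * pq863 y' i with hXdef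
  have hX0 : X 0 = g := by simp [hXdef, pq863_zero]
  have hXl : X l = X 0 := by
    rw [hX0]
    show (nm863 y)⁻¹ * g * nm863 y' = g
    rw [h]
    group
  refine ⟨fun j => X (j : ℕ), ?_, ?_⟩
  · show X ((0 : Fin l) : ℕ) = g
    have h0 : ((0 : Fin l) : ℕ) = 0 := by simp
    rw [h0, hX0]
  · funext j
    rw [Pi.mul_apply, Pi.mul_apply, Pi.inv_apply, shift863_apply]
    show y' j = (X (j : ℕ))⁻¹ * y j * X ((j + 1 : Fin l) : ℕ)
    rw [wrap863 X hXl j]
    have hj : Fin.ofNat l (j : ℕ) = j := by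
      apply Fin.ext
      simp [Fin.ofNat, Nat.mod_eq_of_lt j.2]
    have e1 : pq863 y ((j : ℕ) + 1) = pq863 y (j : ℕ) * y j := by
      rw [pq863_succ, hj]
    have e2 : pq863 y' ((j : ℕ) + 1) = pq863 y' (j : ℕ) * y' j := by
      rw [pq863_succ, hj]
    simp only [hXdef, e1, e2]
    group

end Shift

end Fermat.Agent.LT.T6.H863

end
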