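import Mathlib
import Fermat.Agent.LT.T6.H863.Reps
import Fermat.Agent.LT.T6.H863.Tw

/-!
# Row LT, tower T6, leaf T6.16 (`SplitMatchC`) -- helper863, OFF-MAIN

Part 4: unfolding of the iterated convolution `χ_m = φ_0 * φ_1 * ⋯ * φ_m` (relation `IsConv` of
`T6/Spec.lean`) into a sum over a FULL system of representatives of the factorisations
`g = a_0 a_1 ⋯ a_m` with `∏ φ_j (a_j) ≠ 0`, modulo
`(a_0, …, a_m) ∼ (a_0 u_1, u_1⁻¹ a_1 u_2, …, u_m⁻¹ a_m)`, `u_j ∈ U`.

Factorisations are sequences `a : ℕ → G` (only the first `m + 1` terms matter; the others are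
normalised to `1`).

* `chi_rightInv_863` : `χ_m` is right `U`-invariant;
* `exists_factor_reps_863` : the unfolding.

Mathlib + `T6/Spec.lean` (frozen) only; every proof is complete.
-/

set_option autoImplicit false

open scoped Classical

noncomputable section

namespace Fermat.Agent.LT.T6.H863

open Fermat.Agent.LT.T6

variable {G : Type} [Group G]

/-- Right `U`-equivalence: `h' = h u`. -/
def RU863 (U : Subgroup G) (h h' : G) : Prop := ∃ u : G, u ∈ U ∧ h' = h * u

theorem rU863_equiv (U : Subgroup G) : Equivalence (RU863 U) where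
  refl h := ⟨1, U.one_mem, (mul_one h).symm⟩
  symm := by
    rintro h h' ⟨u, hu, rfl⟩
    exact ⟨u⁻¹, U.inv_mem hu, by group⟩
  trans := by
    rintro h h' h'' ⟨u, hu, rfl⟩ ⟨w, hw, rfl⟩
    exact ⟨u * w, U.mul_mem hu hw, by group⟩

/-- The partial product `a_0 a_1 ⋯ a_{L-1}` of a sequence. -/
def ppS863 : ℕ → (ℕ → G) → G
  | 0, _ => 1
  | (L + 1), a => ppS863 L a * a L

theorem ppS863_zero (a : ℕ → G) : ppS863 0 a = 1 := rfl

theorem ppS863_succ (L : ℕ) (a : ℕ → G) : ppS863 (L + 1) a = ppS863 L a * a L := rfl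

theorem ppS863_congr (L : ℕ) (a b : ℕ → G) (h : ∀ j, j < L → a j = b j) :
    ppS863 L a = ppS863 L b := by
  induction L with
  | zero => rfl
  | succ L ih =>
    rw [ppS863_succ, ppS863_succ, ih (fun j hj => h j (Nat.lt_succ_of_lt hj)),
      h L (Nat.lt_succ_self L)]

/-- The weight `∏_{j < L} φ_j (a_j)` of a sequence. -/
def wtS863 (φ : ℕ → G → ℂ) (L : ℕ) (a : ℕ → G) : ℂ := ∏ j ∈ Finset.range L, φ j (a j)

omit [Group G] in
theorem wtS863_succ (φ : ℕ → G → ℂ) (L : ℕ) (a : ℕ → G) :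
    wtS863 φ (L + 1) a = wtS863 φ L a * φ L (a L) := Finset.prod_range_succ _ _

omit [Group G] in
theorem wtS863_congr (φ : ℕ → G → ℂ) (L : ℕ) (a b : ℕ → G) (h : ∀ j, j < L → a j = b j) :
    wtS863 φ L a = wtS863 φ L b := by
  unfold wtS863
  refine Finset.prod_congr rfl (fun j hj => ?_)
  rw [h j (Finset.mem_range.mp hj)]

/-- The equivalence of factorisations of length `L`. -/
def EqS863 (U : Subgroup G) (L : ℕ) (a a' : ℕ → G) : Prop :=
  ∃ u : ℕ → G, (∀ j, u j ∈ U) ∧ u 0 = 1 ∧ u L = 1 ∧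
    ∀ j, j < L → a' j = (u j)⁻¹ * a j * u (j + 1)

/-- `R` is a full system of representatives of the factorisations of `g` of length `L` in the
support of the weight. -/
structure IsFactorReps863 (U : Subgroup G) (φ : ℕ → G → ℂ) (L : ℕ) (g : G)
    (P : Finset (ℕ → G)) : Prop where
  prod : ∀ a ∈ P, ppS863 L a = g
  wt : ∀ a ∈ P, wtS863 φ L a ≠ 0
  junk : ∀ a ∈ P, ∀ j, L ≤ j → a j = 1
  ineq : ∀ a ∈ P, ∀ b ∈ P, EqS863 U L a b → a = b
  cover : ∀ a : ℕ → G, ppS863 L a = g → wtS863 φ L a ≠ 0 → ∃ b ∈ P, EqS863 U L a b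

section Chain

variable (U : Subgroup G) (φ : ℕ → G → ℂ)
  (hbi : ∀ j, IsBiInv (fun g => g ∈ U) (φ j))
  (hfs : ∀ j, HasFinSupp (fun g => g ∈ U) (φ j))

include hbi in
theorem phi_left_863 (j : ℕ) (u g : G) (hu : u ∈ U) : φ j (u * g) = φ j g := by
  have := hbi j u 1 g hu U.one_mem
  rwa [mul_one] at this

include hbi in
theorem phi_right_863 (j : ℕ) (u g : G) (hu : u ∈ U) : φ j (g * u) = φ j g := by
  have := hbi j 1 u g U.one_mem hu
  rwa [one_mul] at this

include hbi hfs in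
/-- The partial products of the sequences in the support of the weight lie in finitely many
cosets `e U`. -/
theorem exists_finite_pp_863 (L : ℕ) :
    ∃ E : Finset G, ∀ a : ℕ → G, wtS863 φ L a ≠ 0 → ∃ e ∈ E, ∃ u ∈ U, ppS863 L a = e * u := by
  induction L with
  | zero =>
    exact ⟨{1}, fun a _ => ⟨1, Finset.mem_singleton_self 1, 1, U.one_mem, by simp [ppS863_zero]⟩⟩
  | succ L ih =>
    obtain ⟨E, hE⟩ := ih
    obtain ⟨F, hF⟩ := hfs L
    refine ⟨(E ×ˢ F).image (fun p => p.1 * p.2), fun a ha => ?_⟩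
    rw [wtS863_succ] at ha
    have ha1 : wtS863 φ L a ≠ 0 := left_ne_zero_of_mul ha
    have ha2 : φ L (a L) ≠ 0 := right_ne_zero_of_mul ha
    obtain ⟨e, he, u, hu, hpp⟩ := hE a ha1
    have ha3 : φ L (u * a L) ≠ 0 := by rw [phi_left_863 U φ hbi L u _ hu]; exact ha2
    obtain ⟨x, hx, u', hu', hxu⟩ := hF _ ha3
    refine ⟨e * x, Finset.mem_image.mpr ⟨(e, x), Finset.mem_product.mpr ⟨he, hx⟩, rfl⟩, u', hu', ?_⟩
    rw [ppS863_succ, hpp, mul_assoc, hxu, mul_assoc]

variable (l : ℕ) (χ : ℕ → G → ℂ) (hχ0 : χ 0 = φ 0)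
  (hχ : ∀ m : ℕ, m + 1 < l → IsConv (fun g => g ∈ U) (χ m) (φ (m + 1)) (χ (m + 1)))

include hbi hχ0 hχ in
/-- `χ_m` is right `U`-invariant. -/
theorem chi_rightInv_863 (m : ℕ) (hm : m < l) (g u : G) (hu : u ∈ U) :
    χ m (g * u) = χ m g := by
  induction m generalizing g u with
  | zero => rw [hχ0]; exact phi_right_863 U φ hbi 0 u g hu
  | succ m ih =>
    have hm' : m < l := Nat.lt_of_succ_lt hm
    obtain ⟨R₁, hR₁i, hR₁c, hR₁s⟩ := hχ m hm (g * u)
    obtain ⟨R₂, hR₂i, hR₂c, hR₂s⟩ := hχ m hm g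
    rw [hR₁s, hR₂s]
    have hF : ∀ h : G, χ m h * φ (m + 1) (h⁻¹ * (g * u)) = χ m h * φ (m + 1) (h⁻¹ * g) := by
      intro h
      rw [← mul_assoc, phi_right_863 U φ hbi (m + 1) u _ hu]
    rw [Finset.sum_congr rfl (fun h _ => hF h)]
    refine sum_reps_eq_863 (RU863 U) (rU863_equiv U) (fun h => χ m h * φ (m + 1) (h⁻¹ * g)) ?_
      R₁ R₂ ?_ ?_ ?_ ?_
    · rintro a b ⟨w, hw, rfl⟩
      rw [ih hm' a w hw]
      congr 1
      have : (a * w)⁻¹ * g = w⁻¹ * (a⁻¹ * g) := by group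
      rw [this, phi_left_863 U φ hbi (m + 1) w⁻¹ _ (U.inv_mem hw)]
    · intro a ha b hb hab
      obtain ⟨w, hw, hbw⟩ := hab
      exact hR₁i a ha b hb ⟨w, hw, hbw⟩
    · intro a ha b hb hab
      obtain ⟨w, hw, hbw⟩ := hab
      exact hR₂i a ha b hb ⟨w, hw, hbw⟩
    · intro a ha
      have ha' : χ m a * φ (m + 1) (a⁻¹ * (g * u)) ≠ 0 := by
        rw [hF a]
        exact ha
      obtain ⟨b, hb, w, hw, hbw⟩ := hR₁c a ha'
      exact ⟨b, hb, w⁻¹, U.inv_mem hw, by rw [hbw]; group⟩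
    · intro a ha
      have ha' : χ m a * φ (m + 1) (a⁻¹ * g) ≠ 0 := ha
      obtain ⟨b, hb, w, hw, hbw⟩ := hR₂c a ha'
      exact ⟨b, hb, w⁻¹, U.inv_mem hw, by rw [hbw]; group⟩

theorem upd_ppS_863 (m : ℕ) (a : ℕ → G) (x : G) :
    ppS863 (m + 1) (Function.update a (m + 1) x) = ppS863 (m + 1) a :=
  ppS863_congr (m + 1) _ _ (fun _ hj => Function.update_of_ne (Nat.ne_of_lt hj) _ _)

omit [Group G] in
theorem upd_wtS_863 (φ : ℕ → G → ℂ) (m : ℕ) (a : ℕ → G) (x : G) :
    wtS863 φ (m + 1 + 1) (Function.update a (m + 1) x) = wtS863 φ (m + 1) a * φ (m + 1) x := by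
  rw [wtS863_succ, Function.update_self]
  congr 1
  exact wtS863_congr φ (m + 1) _ _ (fun _ hj => Function.update_of_ne (Nat.ne_of_lt hj) _ _)

include hbi hfs hχ0 hχ in
/-- **Unfolding of the iterated convolution.** -/
theorem exists_factor_reps_863 (m : ℕ) (hm : m < l) (g : G) :
    ∃ P : Finset (ℕ → G), IsFactorReps863 U φ (m + 1) g P ∧
      χ m g = ∑ a ∈ P, wtS863 φ (m + 1) a := by
  induction m generalizing g with
  | zero =>
    have hpp : ∀ a : ℕ → G, ppS863 (0 + 1) a = a 0 := fun a => by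
      rw [ppS863_succ, ppS863_zero, one_mul]
    have hwt : ∀ a : ℕ → G, wtS863 φ (0 + 1) a = φ 0 (a 0) := fun a => by
      rw [wtS863_succ]
      simp [wtS863]
    by_cases h0 : φ 0 g = 0
    · refine ⟨∅, ⟨?_, ?_, ?_, ?_, ?_⟩, ?_⟩
      · intro a ha; simp at ha
      · intro a ha; simp at ha
      · intro a ha; simp at ha
      · intro a ha; simp at ha
      · intro a hpa hwa
        exfalso
        rw [hwt, ← hpp a, hpa] at hwa
        exact hwa h0
      · rw [hχ0, h0, Finset.sum_empty]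
    · set a₀ : ℕ → G := fun j => if j = 0 then g else 1 with ha₀
      have ha₀0 : a₀ 0 = g := if_pos rfl
      refine ⟨{a₀}, ⟨?_, ?_, ?_, ?_, ?_⟩, ?_⟩
      · intro a ha
        rw [Finset.mem_singleton.mp ha, hpp, ha₀0]
      · intro a ha
        rw [Finset.mem_singleton.mp ha, hwt, ha₀0]
        exact h0
      · intro a ha j hj
        rw [Finset.mem_singleton.mp ha]
        show (if j = 0 then g else 1) = 1
        rw [if_neg (by omega)]
      · intro a ha b hb _
        rw [Finset.mem_singleton.mp ha, Finset.mem_singleton.mp hb]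
      · intro a hpa _
        refine ⟨a₀, Finset.mem_singleton_self _, fun _ => 1, fun _ => U.one_mem, rfl, rfl, ?_⟩
        intro j hj
        have hj0 : j = 0 := by omega
        subst hj0
        rw [ha₀0, ← hpa, hpp]
        group
      · rw [Finset.sum_singleton, hwt, ha₀0, hχ0]
  | succ m ih =>
    have hm' : m < l := Nat.lt_of_succ_lt hm
    obtain ⟨E, hE⟩ := exists_finite_pp_863 U φ hbi hfs (m + 1)
    obtain ⟨H, -, hHi, hHc⟩ := exists_reps_863 (RU863 U) (rU863_equiv U) E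
    obtain ⟨R, hRi, hRc, hRs⟩ := hχ m hm g
    choose Pf hPf hPfs using (fun h : G => ih hm' h)
    set F : G → ℂ := fun h => χ m h * φ (m + 1) (h⁻¹ * g) with hFdef
    have hFcl : ∀ a b, RU863 U a b → F a = F b := by
      rintro a b ⟨w, hw, rfl⟩
      show χ m a * φ (m + 1) (a⁻¹ * g) = χ m (a * w) * φ (m + 1) ((a * w)⁻¹ * g)
      rw [chi_rightInv_863 U φ hbi l χ hχ0 hχ m hm' a w hw]
      congr 1
      have : (a * w)⁻¹ * g = w⁻¹ * (a⁻¹ * g) := by group
      rw [this, phi_left_863 U φ hbi (m + 1) w⁻¹ _ (U.inv_mem hw)]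
    -- every `h` with a factorisation in the support is equivalent to an element of `H`
    have hHcov : ∀ a : ℕ → G, wtS863 φ (m + 1) a ≠ 0 →
        ∃ h ∈ H, ∃ u ∈ U, ppS863 (m + 1) a = h * u := by
      intro a ha
      obtain ⟨e, he, u, hu, hpp⟩ := hE a ha
      obtain ⟨h, hh, w, hw, hhw⟩ := hHc e he
      refine ⟨h, hh, w⁻¹ * u, U.mul_mem (U.inv_mem hw) hu, ?_⟩
      rw [hpp, hhw]
      group
    have hsum1 : ∑ h ∈ R, F h = ∑ h ∈ H, F h := by
      refine sum_reps_eq_863 (RU863 U) (rU863_equiv U) F hFcl R H ?_ hHi ?_ ?_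
      · intro a ha b hb hab
        obtain ⟨w, hw, hbw⟩ := hab
        exact hRi a ha b hb ⟨w, hw, hbw⟩
      · intro a ha
        have ha' : χ m a * φ (m + 1) (a⁻¹ * g) ≠ 0 := ha
        obtain ⟨b, hb, w, hw, hbw⟩ := hRc a ha'
        exact ⟨b, hb, w⁻¹, U.inv_mem hw, by rw [hbw]; group⟩
      · intro a ha
        have ha' : χ m a ≠ 0 := left_ne_zero_of_mul ha
        rw [hPfs a] at ha'
        obtain ⟨b, hb, -⟩ := Finset.exists_ne_zero_of_sum_ne_zero ha'
        obtain ⟨h, hh, u, hu, hpp⟩ := hHcov b ((hPf a).wt b hb)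
        rw [(hPf a).prod b hb] at hpp
        exact ⟨h, hh, u⁻¹, U.inv_mem hu, by rw [hpp]; group⟩
    set H' : Finset G := H.filter (fun h => φ (m + 1) (h⁻¹ * g) ≠ 0) with hH'
    set upd : G → (ℕ → G) → (ℕ → G) := fun h a => Function.update a (m + 1) (h⁻¹ * g)
      with hupd
    set P : Finset (ℕ → G) := H'.biUnion (fun h => (Pf h).image (upd h)) with hP
    have hmemP : ∀ b, b ∈ P ↔ ∃ h ∈ H, φ (m + 1) (h⁻¹ * g) ≠ 0 ∧ ∃ a ∈ Pf h, upd h a = b := by
      intro b
      rw [hP, Finset.mem_biUnion]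
      constructor
      · rintro ⟨h, hh, hb⟩
        obtain ⟨hh1, hh2⟩ := Finset.mem_filter.mp hh
        obtain ⟨a, ha, hab⟩ := Finset.mem_image.mp hb
        exact ⟨h, hh1, hh2, a, ha, hab⟩
      · rintro ⟨h, hh1, hh2, a, ha, hab⟩
        exact ⟨h, Finset.mem_filter.mpr ⟨hh1, hh2⟩, Finset.mem_image.mpr ⟨a, ha, hab⟩⟩
    have hupd_last : ∀ h a, upd h a (m + 1) = h⁻¹ * g := fun h a => Function.update_self _ _ _
    have hupd_lt : ∀ h a j, j ≠ m + 1 → upd h a j = a j :=
      fun h a j hj => Function.update_of_ne hj _ _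
    have hupd_inj : ∀ h, ∀ a ∈ Pf h, ∀ a' ∈ Pf h, upd h a = upd h a' → a = a' := by
      intro h a ha a' ha' hEq
      funext j
      by_cases hj : j = m + 1
      · rw [hj, (hPf h).junk a ha (m + 1) le_rfl, (hPf h).junk a' ha' (m + 1) le_rfl]
      · have := congrFun hEq j
        rwa [hupd_lt h a j hj, hupd_lt h a' j hj] at this
    refine ⟨P, ⟨?_, ?_, ?_, ?_, ?_⟩, ?_⟩
    · -- prod
      intro b hb
      obtain ⟨h, -, -, a, ha, rfl⟩ := (hmemP b).mp hb
      rw [ppS863_succ, hupd_last, upd_ppS_863, (hPf h).prod a ha]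
      group
    · -- wt
      intro b hb
      obtain ⟨h, -, hφ, a, ha, rfl⟩ := (hmemP b).mp hb
      rw [upd_wtS_863]
      exact mul_ne_zero ((hPf h).wt a ha) hφ
    · -- junk
      intro b hb j hj
      obtain ⟨h, -, -, a, ha, rfl⟩ := (hmemP b).mp hb
      rw [hupd_lt h a j (by omega)]
      exact (hPf h).junk a ha j (by omega)
    · -- ineq
      intro b hb b' hb' hbb'
      obtain ⟨h, hh, -, a, ha, rfl⟩ := (hmemP b).mp hb
      obtain ⟨h', hh', -, a', ha', rfl⟩ := (hmemP b').mp hb'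
      obtain ⟨u, huU, hu0, huL, hu⟩ := hbb'
      have h1 := hu (m + 1) (Nat.lt_succ_self _)
      rw [hupd_last, hupd_last, huL, mul_one] at h1
      have h2 : h' = h * u (m + 1) := by
        have : h'⁻¹ = (u (m + 1))⁻¹ * h⁻¹ := by
          calc h'⁻¹ = (h'⁻¹ * g) * g⁻¹ := by group
            _ = ((u (m + 1))⁻¹ * (h⁻¹ * g)) * g⁻¹ := by rw [h1]
            _ = (u (m + 1))⁻¹ * h⁻¹ := by group
        calc h' = (h'⁻¹)⁻¹ := (inv_inv h').symm
          _ = ((u (m + 1))⁻¹ * h⁻¹)⁻¹ := by rw [this]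
          _ = h * u (m + 1) := by group
      have h3 : h = h' := hHi h hh h' hh' ⟨u (m + 1), huU (m + 1), h2⟩
      subst h3
      have h4 : u (m + 1) = 1 := by
        have : h * u (m + 1) = h * 1 := by rw [← h2, mul_one]
        exact mul_left_cancel this
      have h5 : EqS863 U (m + 1) a a' := by
        refine ⟨u, huU, hu0, h4, fun j hj => ?_⟩
        have := hu j (Nat.lt_succ_of_lt hj)
        rwa [hupd_lt h a' j (Nat.ne_of_lt hj), hupd_lt h a j (Nat.ne_of_lt hj)] at this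
      rw [(hPf h).ineq a ha a' ha' h5]
    · -- cover
      intro a hpa hwa
      rw [wtS863_succ] at hwa
      have hwa1 : wtS863 φ (m + 1) a ≠ 0 := left_ne_zero_of_mul hwa
      have hwa2 : φ (m + 1) (a (m + 1)) ≠ 0 := right_ne_zero_of_mul hwa
      obtain ⟨h, hh, u₀, hu₀, hpp⟩ := hHcov a hwa1
      have hg : g = h * u₀ * a (m + 1) := by rw [← hpa, ppS863_succ, hpp]
      have hφh : φ (m + 1) (h⁻¹ * g) ≠ 0 := by
        have : h⁻¹ * g = u₀ * a (m + 1) := by rw [hg]; group
        rw [this, phi_left_863 U φ hbi (m + 1) u₀ _ hu₀]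
        exact hwa2
      set a' : ℕ → G := fun j => if j < m then a j else if j = m then a m * u₀⁻¹ else 1
        with ha'
      have ha'lt : ∀ j, j < m → a' j = a j := fun j hj => if_pos hj
      have ha'm : a' m = a m * u₀⁻¹ := by
        show (if m < m then a m else if m = m then a m * u₀⁻¹ else 1) = a m * u₀⁻¹
        rw [if_neg (lt_irrefl m), if_pos rfl]
      have hpa' : ppS863 (m + 1) a' = h := by
        rw [ppS863_succ, ha'm, ppS863_congr m a' a ha'lt]
        have : ppS863 m a * a m = h * u₀ := by rw [← ppS863_succ, hpp]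
        calc ppS863 m a * (a m * u₀⁻¹) = (ppS863 m a * a m) * u₀⁻¹ := by group
          _ = h := by rw [this]; group
      have hwa' : wtS863 φ (m + 1) a' ≠ 0 := by
        rw [wtS863_succ, ha'm, wtS863_congr φ m a' a ha'lt,
          phi_right_863 U φ hbi m u₀⁻¹ _ (U.inv_mem hu₀), ← wtS863_succ]
        exact hwa1
      obtain ⟨b, hb, u, huU, hu0, huL, hu⟩ := (hPf h).cover a' hpa' hwa'
      refine ⟨upd h b, (hmemP _).mpr ⟨h, hh, hφh, b, hb, rfl⟩, ?_⟩
      set u' : ℕ → G := fun j => if j ≤ m then u j else if j = m + 1 then u₀⁻¹ else 1 with hu'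
      have hu'le : ∀ j, j ≤ m → u' j = u j := fun j hj => if_pos hj
      have hu'm1 : u' (m + 1) = u₀⁻¹ := by
        show (if m + 1 ≤ m then u (m + 1) else if m + 1 = m + 1 then u₀⁻¹ else 1) = u₀⁻¹
        rw [if_neg (by omega), if_pos rfl]
      have hu'm2 : u' (m + 1 + 1) = 1 := by
        show (if m + 1 + 1 ≤ m then u (m + 1 + 1)
          else if m + 1 + 1 = m + 1 then u₀⁻¹ else 1) = 1
        rw [if_neg (by omega), if_neg (by omega)]
      refine ⟨u', ?_, ?_, hu'm2, ?_⟩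
      · intro j
        show (if j ≤ m then u j else if j = m + 1 then u₀⁻¹ else 1) ∈ U
        split_ifs
        · exact huU j
        · exact U.inv_mem hu₀
        · exact U.one_mem
      · rw [hu'le 0 (Nat.zero_le m), hu0]
      · intro j hj
        rcases Nat.lt_or_ge j m with hjm | hjm
        · rw [hupd_lt h b j (by omega), hu j (by omega), ha'lt j hjm, hu'le j (by omega),
            hu'le (j + 1) (by omega)]
        · rcases Nat.eq_or_lt_of_le hjm with hjm | hjm
          · subst hjm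
            rw [hupd_lt h b m (by omega), hu m (by omega), ha'm, hu'le m le_rfl, hu'm1, huL]
            group
          · have hjm1 : j = m + 1 := by omega
            subst hjm1
            rw [hupd_last, hu'm1, hu'm2, hg]
            group
    · -- the sum
      rw [hRs]
      show ∑ h ∈ R, F h = _
      rw [hsum1]
      have hs1 : ∑ h ∈ H, F h = ∑ h ∈ H', F h := by
        rw [hH']
        refine (Finset.sum_filter_of_ne ?_).symm
        intro h _ hF
        exact right_ne_zero_of_mul hF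
      rw [hs1, hP, Finset.sum_biUnion]
      · refine Finset.sum_congr rfl (fun h _ => ?_)
        rw [Finset.sum_image (fun a ha a' ha' hEq => hupd_inj h a ha a' ha' hEq)]
        show χ m h * φ (m + 1) (h⁻¹ * g) = _
        rw [hPfs h, Finset.sum_mul]
        refine Finset.sum_congr rfl (fun a _ => ?_)
        rw [upd_wtS_863]
      · intro h _ h' _ hne
        rw [Function.onFun, Finset.disjoint_left]
        intro b hb hb'
        obtain ⟨a, -, rfl⟩ := Finset.mem_image.mp hb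
        obtain ⟨a', -, hab⟩ := Finset.mem_image.mp hb'
        have := congrFun hab (m + 1)
        rw [hupd_last, hupd_last] at this
        apply hne
        have h6 : h'⁻¹ = h⁻¹ := mul_right_cancel this
        exact (inv_injective h6).symm

end Chain

end Fermat.Agent.LT.T6.H863

end
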