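import Mathlib
import Fermat.Agent.LT.T6.H863.Reps
import Fermat.Agent.LT.T6.H863.Tw

/-!
# Row LT, tower T6, leaf T6.16 (`SplitMatchC`) -- helper863, OFF-MAIN

Part 3: the COUNTING LEMMA.  `G` a group, `U ≤ G`, `Cpt` a conjugation-invariant predicate on `G`
(for `GL₂(k)`: integral trace and unit determinant) containing `U`; `y₀ ∈ G^l` with norm `z`;
`A = {t | t⁻¹ z t = z, Cpt t}` a subgroup.  For a system `P` of representatives of the classes
modulo `U₁ = {u ∈ U^l | u 0 = 1}` (twisted conjugation) of the elements of norm `z` in the support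
of a class function `Φ`, with `Φ y₀ ≠ 0`:

    cIndex(z) * #{y ∈ P | y ∼ y₀ modulo U^l} = cIndex(y₀)            (`count_863`)

(Lagrange for `C ≤ B ≤ A`, `B = U ∩ A`, `C = pr₀ (U^l ∩ T_{y₀})`.)

Mathlib + `T6/Spec.lean` (frozen) only; every proof is complete.
-/

set_option autoImplicit false

open scoped Classical

noncomputable section

namespace Fermat.Agent.LT.T6.H863

open Fermat.Agent.LT.T6

/-! ## Cosets -/

section Cosets

variable {Γ : Type} [Group Γ]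

/-- The number of cosets `t V`, `t ∈ T`, is the relative index of `V` in `T`. -/
theorem ncard_cosets_863 (V T : Subgroup Γ) :
    Set.ncard {c : Set Γ | ∃ t : Γ, t ∈ T ∧ c = {g : Γ | ∃ u : Γ, u ∈ V ∧ g = t * u}}
      = V.relIndex T := by
  let f₀ : T → Set Γ := fun t => {g : Γ | ∃ u : Γ, u ∈ V ∧ g = (t : Γ) * u}
  have hf₀ : ∀ a b : T, (QuotientGroup.leftRel (V.subgroupOf T)) a b → f₀ a = f₀ b := by
    intro a b hab
    rw [QuotientGroup.leftRel_apply, Subgroup.mem_subgroupOf] at hab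
    have hab' : (a : Γ)⁻¹ * (b : Γ) ∈ V := by simpa using hab
    ext g
    constructor
    · rintro ⟨u, hu, rfl⟩
      refine ⟨((a : Γ)⁻¹ * (b : Γ))⁻¹ * u, V.mul_mem (V.inv_mem hab') hu, ?_⟩
      group
    · rintro ⟨u, hu, rfl⟩
      refine ⟨((a : Γ)⁻¹ * (b : Γ)) * u, V.mul_mem hab' hu, ?_⟩
      group
  let f : T ⧸ V.subgroupOf T → Set Γ := Quotient.lift f₀ hf₀
  have hinj : Function.Injective f := by
    intro q₁ q₂
    refine Quotient.inductionOn₂ q₁ q₂ ?_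
    intro a b hab
    apply Quotient.sound
    show (QuotientGroup.leftRel (V.subgroupOf T)) a b
    rw [QuotientGroup.leftRel_apply, Subgroup.mem_subgroupOf]
    have hb : (b : Γ) ∈ f₀ b := ⟨1, V.one_mem, by simp⟩
    have hb' : (b : Γ) ∈ f₀ a := by
      have : f₀ a = f₀ b := hab
      rw [this]
      exact hb
    obtain ⟨u, hu, hbu⟩ := hb'
    have : (a : Γ)⁻¹ * (b : Γ) = u := by rw [hbu]; group
    simpa [this] using hu
  have hrange : Set.range f
      = {c : Set Γ | ∃ t : Γ, t ∈ T ∧ c = {g : Γ | ∃ u : Γ, u ∈ V ∧ g = t * u}} := by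
    ext c
    constructor
    · rintro ⟨q, rfl⟩
      refine Quotient.inductionOn q ?_
      intro a
      exact ⟨(a : Γ), a.2, rfl⟩
    · rintro ⟨t, ht, rfl⟩
      exact ⟨Quotient.mk _ ⟨t, ht⟩, rfl⟩
  rw [← hrange, ← Set.image_univ, Set.ncard_image_of_injective _ hinj, Set.ncard_univ]
  rfl

/-- `cIndex` as a relative index. -/
theorem cIndex_eq_relIndex_863 (U : Γ → Prop) (C : Γ → Γ → Prop) (y : Γ) (V T : Subgroup Γ)
    (hV : ∀ u, U u ↔ u ∈ V) (hT : ∀ t, C y t ↔ t ∈ T) : cIndex U C y = V.relIndex T := by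
  rw [← ncard_cosets_863]
  unfold cIndex
  congr 1
  ext c
  constructor
  · rintro ⟨t, ht, rfl⟩
    refine ⟨t, (hT t).mp ht, ?_⟩
    ext g
    constructor
    · rintro ⟨u, hu, rfl⟩
      exact ⟨u, (hV u).mp hu, rfl⟩
    · rintro ⟨u, hu, rfl⟩
      exact ⟨u, (hV u).mpr hu, rfl⟩
  · rintro ⟨t, ht, rfl⟩
    refine ⟨t, (hT t).mpr ht, ?_⟩
    ext g
    constructor
    · rintro ⟨u, hu, rfl⟩
      exact ⟨u, (hV u).mpr hu, rfl⟩
    · rintro ⟨u, hu, rfl⟩
      exact ⟨u, (hV u).mp hu, rfl⟩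

/-- Twisted conjugation is a right action. -/
theorem tw_mul_863 (s : Γ →* Γ) (u w y : Γ) :
    (u * w)⁻¹ * y * s (u * w) = w⁻¹ * (u⁻¹ * y * s u) * s w := by
  rw [map_mul]
  group

theorem tw_one_863 (s : Γ →* Γ) (y : Γ) : (1 : Γ)⁻¹ * y * s 1 = y := by
  rw [map_one]
  group

theorem tw_inv_863 (s : Γ →* Γ) (u y y' : Γ) (h : y' = u⁻¹ * y * s u) :
    y = (u⁻¹)⁻¹ * y' * s u⁻¹ := by
  rw [h, map_inv]
  group

end Cosets

/-! ## The split group `G^l` -/

section Split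

variable {G : Type} [Group G] {l : ℕ} [NeZero l]

/-- Twisted conjugation on `G^l`: `y ↦ u⁻¹ y s(u)`. -/
def act863 (u y : Fin l → G) : Fin l → G := u⁻¹ * y * shift863 l u

theorem act863_mul (u w y : Fin l → G) : act863 (u * w) y = act863 w (act863 u y) :=
  tw_mul_863 (shift863 l) u w y

theorem act863_one (y : Fin l → G) : act863 1 y = y := tw_one_863 (shift863 l) y

theorem act863_inv (u y : Fin l → G) : act863 u⁻¹ (act863 u y) = y := by
  rw [← act863_mul, mul_inv_cancel, act863_one]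

theorem act863_inv' (u y : Fin l → G) : act863 u (act863 u⁻¹ y) = y := by
  rw [← act863_mul, inv_mul_cancel, act863_one]

theorem nm863_act (u y : Fin l → G) : nm863 (act863 u y) = (u 0)⁻¹ * nm863 y * u 0 :=
  nm863_conj u y

/-- `U^l` as a subgroup of `G^l`. -/
def ULgrp863 (U : Subgroup G) (l : ℕ) : Subgroup (Fin l → G) where
  carrier := {u | ∀ j, u j ∈ U}
  one_mem' := fun _ => U.one_mem
  mul_mem' := fun ha hb j => U.mul_mem (ha j) (hb j)
  inv_mem' := fun ha j => U.inv_mem (ha j)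

omit [NeZero l] in
theorem mem_ULgrp863 (U : Subgroup G) (u : Fin l → G) : u ∈ ULgrp863 U l ↔ ∀ j, u j ∈ U :=
  Iff.rfl

/-- Twisted equivalence modulo `U^l`. -/
def TwEq863 (U : Subgroup G) (y y' : Fin l → G) : Prop :=
  ∃ u : Fin l → G, (∀ j, u j ∈ U) ∧ y' = act863 u y

/-- Twisted equivalence modulo `U₁ = {u ∈ U^l | u 0 = 1}`. -/
def TwEq1863 (U : Subgroup G) (y y' : Fin l → G) : Prop :=
  ∃ u : Fin l → G, (∀ j, u j ∈ U) ∧ u 0 = 1 ∧ y' = act863 u y

theorem TwEq1863.toTwEq {U : Subgroup G} {y y' : Fin l → G} (h : TwEq1863 U y y') :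
    TwEq863 U y y' := by
  obtain ⟨u, hu, -, h⟩ := h
  exact ⟨u, hu, h⟩

theorem twEq863_equiv (U : Subgroup G) : Equivalence (TwEq863 (l := l) U) where
  refl y := ⟨1, fun _ => U.one_mem, (act863_one y).symm⟩
  symm := by
    rintro y y' ⟨u, hu, rfl⟩
    exact ⟨u⁻¹, fun j => U.inv_mem (hu j), (act863_inv u y).symm⟩
  trans := by
    rintro y y' y'' ⟨u, hu, rfl⟩ ⟨w, hw, rfl⟩
    exact ⟨u * w, fun j => U.mul_mem (hu j) (hw j), (act863_mul u w y).symm⟩

theorem twEq1863_equiv (U : Subgroup G) : Equivalence (TwEq1863 (l := l) U) where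
  refl y := ⟨1, fun _ => U.one_mem, rfl, (act863_one y).symm⟩
  symm := by
    rintro y y' ⟨u, hu, hu0, rfl⟩
    refine ⟨u⁻¹, fun j => U.inv_mem (hu j), ?_, (act863_inv u y).symm⟩
    rw [Pi.inv_apply, hu0, inv_one]
  trans := by
    rintro y y' y'' ⟨u, hu, hu0, rfl⟩ ⟨w, hw, hw0, rfl⟩
    refine ⟨u * w, fun j => U.mul_mem (hu j) (hw j), ?_, (act863_mul u w y).symm⟩
    rw [Pi.mul_apply, hu0, hw0, mul_one]

/-- The hypotheses on the predicate `Cpt` ("compact": integral trace, unit determinant). -/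
structure CptData863 (U : Subgroup G) (Cpt : G → Prop) : Prop where
  conj : ∀ g t, Cpt t → Cpt (g⁻¹ * t * g)
  ofU : ∀ u ∈ U, Cpt u
  inv : ∀ t, Cpt t → Cpt t⁻¹

/-- `Cpt` is closed under multiplication on the centraliser of `z`. -/
def CptMul863 (Cpt : G → Prop) (z : G) : Prop :=
  ∀ t t', t⁻¹ * z * t = z → t'⁻¹ * z * t' = z → Cpt t → Cpt t' → Cpt (t * t')

/-- The compact part `A` of the centraliser of `z`. -/
def Agrp863 {U : Subgroup G} {Cpt : G → Prop} (hC : CptData863 U Cpt) (z : G)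
    (hmul : CptMul863 Cpt z) : Subgroup G where
  carrier := {t | t⁻¹ * z * t = z ∧ Cpt t}
  one_mem' := ⟨by simp, hC.ofU 1 U.one_mem⟩
  mul_mem' := by
    rintro a b ⟨ha, ha'⟩ ⟨hb, hb'⟩
    refine ⟨?_, hmul a b ha hb ha' hb'⟩
    calc (a * b)⁻¹ * z * (a * b) = b⁻¹ * (a⁻¹ * z * a) * b := by group
      _ = z := by rw [ha, hb]
  inv_mem' := by
    rintro a ⟨ha, ha'⟩
    refine ⟨?_, hC.inv a ha'⟩
    calc (a⁻¹)⁻¹ * z * a⁻¹ = (a⁻¹)⁻¹ * (a⁻¹ * z * a) * a⁻¹ := by rw [ha]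
      _ = z := by group

theorem mem_Agrp863 {U : Subgroup G} {Cpt : G → Prop} (hC : CptData863 U Cpt) (z : G)
    (hmul : CptMul863 Cpt z) (t : G) :
    t ∈ Agrp863 hC z hmul ↔ t⁻¹ * z * t = z ∧ Cpt t := Iff.rfl

/-- The compact part of the twisted centraliser of `y₀`, as a subgroup of `G^l`. -/
def Tgrp863 {U : Subgroup G} {Cpt : G → Prop} (hC : CptData863 U Cpt) (y₀ : Fin l → G)
    (hmul : CptMul863 Cpt (nm863 y₀)) : Subgroup (Fin l → G) where
  carrier := {t | act863 t y₀ = y₀ ∧ t 0 ∈ Agrp863 hC (nm863 y₀) hmul}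
  one_mem' := ⟨act863_one y₀, (Agrp863 hC (nm863 y₀) hmul).one_mem⟩
  mul_mem' := by
    rintro a b ⟨ha, ha'⟩ ⟨hb, hb'⟩
    refine ⟨?_, (Agrp863 hC (nm863 y₀) hmul).mul_mem ha' hb'⟩
    rw [act863_mul, ha, hb]
  inv_mem' := by
    rintro a ⟨ha, ha'⟩
    refine ⟨?_, (Agrp863 hC (nm863 y₀) hmul).inv_mem ha'⟩
    have := act863_inv a y₀
    rw [ha] at this
    exact this

/-- The predicate of the split orbit sum is membership in `Tgrp863`. -/
theorem csplit_iff_mem_Tgrp863 {U : Subgroup G} {Cpt : G → Prop} (hC : CptData863 U Cpt)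
    (y₀ : Fin l → G) (hmul : CptMul863 Cpt (nm863 y₀)) (t : Fin l → G) :
    (t⁻¹ * y₀ * shift863 l t = y₀ ∧ ∀ j, Cpt (t j)) ↔ t ∈ Tgrp863 hC y₀ hmul := by
  constructor
  · rintro ⟨h1, h2⟩
    refine ⟨h1, ?_, h2 0⟩
    have := nm863_act t y₀
    rw [show act863 t y₀ = y₀ from h1] at this
    exact this.symm
  · rintro ⟨h1, -, h3⟩
    refine ⟨h1, fun j => ?_⟩
    have := tw_unique_fin_863 t y₀ y₀ h1.symm j
    rw [this]
    have hc := hC.conj (pq863 y₀ (j : ℕ)) (t 0) h3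
    exact hc

/-- An element of the twisted centraliser is determined by its component at `0`. -/
theorem tw_cent_ext_863 (y₀ t t' : Fin l → G) (h : act863 t y₀ = y₀) (h' : act863 t' y₀ = y₀)
    (h0 : t 0 = t' 0) : t = t' := by
  funext j
  rw [tw_unique_fin_863 t y₀ y₀ h.symm j, tw_unique_fin_863 t' y₀ y₀ h'.symm j, h0]

/-- The projection to the component `0`. -/
def pr0863 (G : Type) [Group G] (l : ℕ) [NeZero l] : (Fin l → G) →* G :=
  Pi.evalMonoidHom (fun _ : Fin l => G) 0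

theorem pr0863_apply (t : Fin l → G) : pr0863 G l t = t 0 := rfl

/-- The subgroup `C = pr₀ (U^l ∩ T)`. -/
def Cgrp863 {U : Subgroup G} {Cpt : G → Prop} (hC : CptData863 U Cpt) (y₀ : Fin l → G)
    (hmul : CptMul863 Cpt (nm863 y₀)) : Subgroup G :=
  Subgroup.map (pr0863 G l) (ULgrp863 U l ⊓ Tgrp863 hC y₀ hmul)

theorem map_pr0_Tgrp863 {U : Subgroup G} {Cpt : G → Prop} (hC : CptData863 U Cpt)
    (y₀ : Fin l → G) (hmul : CptMul863 Cpt (nm863 y₀)) :
    Subgroup.map (pr0863 G l) (Tgrp863 hC y₀ hmul) = Agrp863 hC (nm863 y₀) hmul := by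
  ext a
  constructor
  · rintro ⟨t, ht, rfl⟩
    exact ht.2
  · intro ha
    have hcomm : nm863 y₀ = a⁻¹ * nm863 y₀ * a := ha.1.symm
    obtain ⟨t, ht0, ht⟩ := tw_exists_863 y₀ y₀ a hcomm
    refine ⟨t, ⟨ht.symm, ?_⟩, ht0⟩
    rw [ht0]
    exact ha

/-- `cIndex` of the split orbit sum as a relative index in `G`. -/
theorem cIndex_split_863 {U : Subgroup G} {Cpt : G → Prop} (hC : CptData863 U Cpt)
    (y₀ : Fin l → G) (hmul : CptMul863 Cpt (nm863 y₀)) :
    cIndex (fun u : Fin l → G => ∀ j, u j ∈ U)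
        (fun y t => t⁻¹ * y * shift863 l t = y ∧ ∀ j, Cpt (t j)) y₀
      = (Cgrp863 hC y₀ hmul).relIndex (Agrp863 hC (nm863 y₀) hmul) := by
  have h0 := cIndex_eq_relIndex_863 (fun u : Fin l → G => ∀ j, u j ∈ U)
    (fun y t => t⁻¹ * y * shift863 l t = y ∧ ∀ j, Cpt (t j)) y₀ (ULgrp863 U l)
    (Tgrp863 hC y₀ hmul) (fun u => Iff.rfl) (fun t => csplit_iff_mem_Tgrp863 hC y₀ hmul t)
  rw [h0]
  rw [← map_pr0_Tgrp863 hC y₀ hmul, ← Subgroup.relIndex_comap,
    ← Subgroup.inf_relIndex_right (ULgrp863 U l), ← Subgroup.inf_relIndex_right (Subgroup.comap _ _)]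
  congr 1
  ext t
  simp only [Subgroup.mem_inf, Subgroup.mem_comap]
  constructor
  · rintro ⟨h1, h2⟩
    exact ⟨⟨t, ⟨h1, h2⟩, rfl⟩, h2⟩
  · rintro ⟨⟨t', ⟨h1, h2⟩, h0⟩, h3⟩
    have : t' = t := tw_cent_ext_863 y₀ t' t h2.1 h3.1 h0
    rw [← this]
    exact ⟨h1, h2⟩

/-- `cIndex` of the ordinary orbit sum as a relative index. -/
theorem cIndex_ord_863 {U : Subgroup G} {Cpt : G → Prop} (hC : CptData863 U Cpt) (z : G)
    (hmul : CptMul863 Cpt z) :
    cIndex (fun u : G => u ∈ U) (fun z t => t⁻¹ * z * t = z ∧ Cpt t) z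
      = (U ⊓ Agrp863 hC z hmul).relIndex (Agrp863 hC z hmul) := by
  have h0 := cIndex_eq_relIndex_863 (fun u : G => u ∈ U)
    (fun z t => t⁻¹ * z * t = z ∧ Cpt t) z U (Agrp863 hC z hmul) (fun u => Iff.rfl)
    (fun t => Iff.rfl)
  rw [h0, Subgroup.inf_relIndex_right]

theorem Cgrp_le_863 {U : Subgroup G} {Cpt : G → Prop} (hC : CptData863 U Cpt) (y₀ : Fin l → G)
    (hmul : CptMul863 Cpt (nm863 y₀)) :
    Cgrp863 hC y₀ hmul ≤ U ⊓ Agrp863 hC (nm863 y₀) hmul := by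
  rintro c ⟨t, ⟨h1, h2⟩, rfl⟩
  exact ⟨h1 0, h2.2⟩

/-- The number of elements of `P` in the class of `y₀` modulo `U^l` is `[B : C]`. -/
theorem card_Q_863 {U : Subgroup G} {Cpt : G → Prop} (hC : CptData863 U Cpt) (y₀ : Fin l → G)
    (hmul : CptMul863 Cpt (nm863 y₀)) (Φ : (Fin l → G) → ℂ)
    (hΦ : ∀ u y : Fin l → G, (∀ j, u j ∈ U) → Φ (act863 u y) = Φ y) (hΦ0 : Φ y₀ ≠ 0)
    (P : Finset (Fin l → G)) (hPn : ∀ y ∈ P, nm863 y = nm863 y₀)
    (hPi : IsIneq863 (TwEq1863 U) P)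
    (hPc : ∀ y, nm863 y = nm863 y₀ → Φ y ≠ 0 → ∃ y' ∈ P, TwEq1863 U y y') :
    (P.filter (fun y => TwEq863 U y₀ y)).card
      = (Cgrp863 hC y₀ hmul).relIndex (U ⊓ Agrp863 hC (nm863 y₀) hmul) := by
  set A := Agrp863 hC (nm863 y₀) hmul with hA
  set B := U ⊓ A with hB
  set C := Cgrp863 hC y₀ hmul with hCdef
  set Q := P.filter (fun y => TwEq863 U y₀ y) with hQ
  have he1 := twEq1863_equiv (l := l) U
  let ub : G → (Fin l → G) := fun b j => if j = 0 then b⁻¹ else 1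
  have hub0 : ∀ b, ub b 0 = b⁻¹ := fun b => if_pos rfl
  have hubU : ∀ b ∈ U, ∀ j, ub b j ∈ U := by
    intro b hb j
    by_cases hj : j = 0
    · subst hj
      rw [hub0]
      exact U.inv_mem hb
    · show (if j = 0 then b⁻¹ else 1) ∈ U
      rw [if_neg hj]
      exact U.one_mem
  let yb : G → (Fin l → G) := fun b => act863 (ub b) y₀
  have hyb_nm : ∀ b ∈ B, nm863 (yb b) = nm863 y₀ := by
    intro b hb
    show nm863 (act863 (ub b) y₀) = nm863 y₀
    rw [nm863_act, hub0, inv_inv]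
    have h1 : b⁻¹ * nm863 y₀ * b = nm863 y₀ := hb.2.1
    calc b * nm863 y₀ * b⁻¹ = b * (b⁻¹ * nm863 y₀ * b) * b⁻¹ := by rw [h1]
      _ = nm863 y₀ := by group
  have hyb_Φ : ∀ b ∈ B, Φ (yb b) ≠ 0 := by
    intro b hb
    show Φ (act863 (ub b) y₀) ≠ 0
    rw [hΦ _ _ (hubU b hb.1)]
    exact hΦ0
  have hex : ∀ b : B, ∃ y' ∈ P, TwEq1863 U (yb b) y' :=
    fun b => hPc _ (hyb_nm b b.2) (hyb_Φ b b.2)
  let pick : B → (Fin l → G) := fun b => Classical.choose (hex b)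
  have hpickP : ∀ b : B, pick b ∈ P := fun b => (Classical.choose_spec (hex b)).1
  have hpick1 : ∀ b : B, TwEq1863 U (yb b) (pick b) :=
    fun b => (Classical.choose_spec (hex b)).2
  have hpickQ : ∀ b : B, pick b ∈ Q := by
    intro b
    refine Finset.mem_filter.mpr ⟨hpickP b, ?_⟩
    have h1 : TwEq863 U y₀ (yb b) := ⟨ub b, hubU b b.2.1, rfl⟩
    exact (twEq863_equiv U).trans h1 (hpick1 b).toTwEq
  have hkey : ∀ b b' : B, pick b = pick b' ↔ (b : G)⁻¹ * (b' : G) ∈ C := by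
    intro b b'
    constructor
    · intro h
      have h1 : TwEq1863 U (yb b) (yb b') := by
        refine he1.trans (hpick1 b) ?_
        rw [h]
        exact he1.symm (hpick1 b')
      obtain ⟨w, hwU, hw0, hw⟩ := h1
      have hw' : yb b' = act863 (ub b * w) y₀ := by rw [act863_mul]; exact hw
      refine ⟨ub b * w * (ub b')⁻¹, ⟨?_, ?_, ?_⟩, ?_⟩
      · intro j
        exact U.mul_mem (U.mul_mem (hubU b b.2.1 j) (hwU j)) (U.inv_mem (hubU b' b'.2.1 j))
      · show act863 (ub b * w * (ub b')⁻¹) y₀ = y₀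
        rw [act863_mul, ← hw']
        exact act863_inv (ub b') y₀
      · show (ub b * w * (ub b')⁻¹) 0 ∈ A
        rw [Pi.mul_apply, Pi.mul_apply, Pi.inv_apply, hub0, hub0, hw0, mul_one, inv_inv]
        exact A.mul_mem (A.inv_mem b.2.2) b'.2.2
      · show (ub b * w * (ub b')⁻¹) 0 = (b : G)⁻¹ * (b' : G)
        rw [Pi.mul_apply, Pi.mul_apply, Pi.inv_apply, hub0, hub0, hw0, mul_one, inv_inv]
    · rintro ⟨t, ⟨htU, htT⟩, ht0⟩
      have ht0' : t 0 = (b : G)⁻¹ * (b' : G) := ht0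
      have h1 : TwEq1863 U (yb b) (yb b') := by
        refine ⟨(ub b)⁻¹ * t * ub b', ?_, ?_, ?_⟩
        · intro j
          exact U.mul_mem (U.mul_mem (U.inv_mem (hubU b b.2.1 j)) (htU j)) (hubU b' b'.2.1 j)
        · rw [Pi.mul_apply, Pi.mul_apply, Pi.inv_apply, hub0, hub0, ht0']
          group
        · show act863 (ub b') y₀ = act863 ((ub b)⁻¹ * t * ub b') (act863 (ub b) y₀)
          rw [← act863_mul]
          have : ub b * ((ub b)⁻¹ * t * ub b') = t * ub b' := by group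
          rw [this, act863_mul, htT.1]
      have h2 : TwEq1863 U (pick b) (pick b') :=
        he1.trans (he1.symm (hpick1 b)) (he1.trans h1 (hpick1 b'))
      exact hPi _ (hpickP b) _ (hpickP b') h2
  let f₀ : B → {y // y ∈ Q} := fun b => ⟨pick b, hpickQ b⟩
  have hf₀ : ∀ a b : B, (QuotientGroup.leftRel (C.subgroupOf B)) a b → f₀ a = f₀ b := by
    intro a b hab
    rw [QuotientGroup.leftRel_apply, Subgroup.mem_subgroupOf] at hab
    apply Subtype.ext
    show pick a = pick b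
    rw [hkey]
    simpa using hab
  let f : B ⧸ C.subgroupOf B → {y // y ∈ Q} := Quotient.lift f₀ hf₀
  have hinj : Function.Injective f := by
    intro q₁ q₂
    refine Quotient.inductionOn₂ q₁ q₂ ?_
    intro a b hab
    apply Quotient.sound
    show (QuotientGroup.leftRel (C.subgroupOf B)) a b
    rw [QuotientGroup.leftRel_apply, Subgroup.mem_subgroupOf]
    have h1 : pick a = pick b := congrArg Subtype.val hab
    have h2 := (hkey a b).mp h1
    simpa using h2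
  have hsurj : Function.Surjective f := by
    rintro ⟨y, hy⟩
    obtain ⟨hyP, u, huU, hyu⟩ := Finset.mem_filter.mp hy
    have hn : nm863 y = nm863 y₀ := hPn y hyP
    rw [hyu, nm863_act] at hn
    have hbA : (u 0)⁻¹ ∈ A := by
      refine ⟨?_, hC.ofU _ (U.inv_mem (huU 0))⟩
      rw [inv_inv]
      calc u 0 * nm863 y₀ * (u 0)⁻¹
          = u 0 * ((u 0)⁻¹ * nm863 y₀ * u 0) * (u 0)⁻¹ := by rw [hn]
        _ = nm863 y₀ := by group
    let b : B := ⟨(u 0)⁻¹, U.inv_mem (huU 0), hbA⟩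
    refine ⟨Quotient.mk _ b, ?_⟩
    apply Subtype.ext
    show pick b = y
    have h1 : TwEq1863 U (yb b) y := by
      refine ⟨(ub (b : G))⁻¹ * u, ?_, ?_, ?_⟩
      · intro j
        exact U.mul_mem (U.inv_mem (hubU b b.2.1 j)) (huU j)
      · rw [Pi.mul_apply, Pi.inv_apply, hub0]
        show (((u 0)⁻¹)⁻¹)⁻¹ * u 0 = 1
        group
      · show y = act863 ((ub (b : G))⁻¹ * u) (act863 (ub (b : G)) y₀)
        rw [← act863_mul, hyu]
        congr 1
        group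
    have h2 : TwEq1863 U (pick b) y := he1.trans (he1.symm (hpick1 b)) h1
    exact hPi _ (hpickP b) _ hyP h2
  have hcard : Nat.card (B ⧸ C.subgroupOf B) = Nat.card {y // y ∈ Q} :=
    Nat.card_congr (Equiv.ofBijective f ⟨hinj, hsurj⟩)
  have h3 : Nat.card {y // y ∈ Q} = Q.card := Nat.card_eq_finsetCard Q
  rw [← h3, ← hcard]
  rfl

/-- **THE COUNTING LEMMA.** -/
theorem count_863 {U : Subgroup G} {Cpt : G → Prop} (hC : CptData863 U Cpt) (y₀ : Fin l → G)
    (hmul : CptMul863 Cpt (nm863 y₀)) (Φ : (Fin l → G) → ℂ)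
    (hΦ : ∀ u y : Fin l → G, (∀ j, u j ∈ U) → Φ (act863 u y) = Φ y) (hΦ0 : Φ y₀ ≠ 0)
    (P : Finset (Fin l → G)) (hPn : ∀ y ∈ P, nm863 y = nm863 y₀)
    (hPi : IsIneq863 (TwEq1863 U) P)
    (hPc : ∀ y, nm863 y = nm863 y₀ → Φ y ≠ 0 → ∃ y' ∈ P, TwEq1863 U y y') :
    cIndex (fun u : G => u ∈ U) (fun z t => t⁻¹ * z * t = z ∧ Cpt t) (nm863 y₀)
        * (P.filter (fun y => TwEq863 U y₀ y)).card
      = cIndex (fun u : Fin l → G => ∀ j, u j ∈ U)
          (fun y t => t⁻¹ * y * shift863 l t = y ∧ ∀ j, Cpt (t j)) y₀ := by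
  rw [cIndex_ord_863 hC (nm863 y₀) hmul, cIndex_split_863 hC y₀ hmul,
    card_Q_863 hC y₀ hmul Φ hΦ hΦ0 P hPn hPi hPc, mul_comm]
  exact Subgroup.relIndex_mul_relIndex _ _ _ (Cgrp_le_863 hC y₀ hmul) inf_le_right

end Split

end Fermat.Agent.LT.T6.H863

end
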