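import Mathlib
import Fermat.Agent.LT.T6.H863.Conv
import Fermat.Agent.LT.T6.H863.Count

/-!
# Row LT, tower T6, leaf T6.16 (`SplitMatchC`) -- helper863, OFF-MAIN

Part 5: transfer of the unfolding of Part 4 from sequences to `G^l = Fin l → G`, invariance of
the pure tensor `Φ` and of `cIndex` under twisted conjugation.

* `exists_fibre_reps_863` : for every `z` there is a full system `P` of representatives modulo
  `U₁` of the `y ∈ G^l` of norm `z` with `Φ y ≠ 0`, and `f z = ∑_{y ∈ P} Φ y`;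
* `tensor_act_863` : `Φ (u⁻¹ y s(u)) = Φ y` for `u ∈ U^l`;
* `cIndex_act_863` : `cIndex (u⁻¹ y s(u)) = cIndex y` for `u ∈ U^l`.

Mathlib + `T6/Spec.lean` (frozen) only; every proof is complete.
-/

set_option autoImplicit false

open scoped Classical

noncomputable section

namespace Fermat.Agent.LT.T6.H863

open Fermat.Agent.LT.T6

variable {G : Type} [Group G] {l : ℕ} [NeZero l]

/-- A tuple as a sequence (extended by `1`). -/
def seq863 (y : Fin l → G) : ℕ → G := fun j => if h : j < l then y ⟨j, h⟩ else 1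

/-- The restriction of a sequence to a tuple. -/
def res863 (l : ℕ) (a : ℕ → G) : Fin l → G := fun j => a j

omit [NeZero l] in
theorem seq863_val (y : Fin l → G) (j : Fin l) : seq863 y (j : ℕ) = y j := by
  unfold seq863
  rw [dif_pos j.2]

omit [NeZero l] in
theorem seq863_ge (y : Fin l → G) (j : ℕ) (hj : l ≤ j) : seq863 y j = 1 := by
  unfold seq863
  rw [dif_neg (by omega)]

omit [NeZero l] in
theorem res_seq_863 (y : Fin l → G) : res863 l (seq863 y) = y := by
  funext j
  exact seq863_val y j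

omit [NeZero l] in
theorem seq_res_863 (a : ℕ → G) (ha : ∀ j, l ≤ j → a j = 1) : seq863 (res863 l a) = a := by
  funext j
  by_cases hj : j < l
  · unfold seq863
    rw [dif_pos hj]
    rfl
  · rw [seq863_ge _ _ (by omega), ha j (by omega)]

theorem ofNat_val_863 (j : ℕ) (hj : j < l) : Fin.ofNat l j = ⟨j, hj⟩ := by
  apply Fin.ext
  simp [Fin.ofNat, Nat.mod_eq_of_lt hj]

theorem pq_eq_ppS_863 (y : Fin l → G) (j : ℕ) (hj : j ≤ l) : pq863 y j = ppS863 j (seq863 y) := by
  induction j with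
  | zero => rfl
  | succ j ih =>
    have hj' : j < l := hj
    rw [pq863_succ, ppS863_succ, ih (Nat.le_of_lt hj'), ofNat_val_863 j hj']
    congr 1
    exact (seq863_val y ⟨j, hj'⟩).symm

theorem nm_eq_ppS_863 (y : Fin l → G) : nm863 y = ppS863 l (seq863 y) :=
  pq_eq_ppS_863 y l le_rfl

/-- The pure tensor `Φ y = ∏_j φ_j (y_j)`. -/
def tensor863 (φ : ℕ → G → ℂ) (l : ℕ) (y : Fin l → G) : ℂ := ∏ j : Fin l, φ (j : ℕ) (y j)

omit [NeZero l] in
theorem tensor_eq_wtS_863 (φ : ℕ → G → ℂ) (y : Fin l → G) :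
    tensor863 φ l y = wtS863 φ l (seq863 y) := by
  unfold tensor863 wtS863
  rw [Finset.prod_range (fun j => φ j (seq863 y j))]
  refine Finset.prod_congr rfl (fun j _ => ?_)
  rw [seq863_val]

/-- Twisted equivalence modulo `U₁` in terms of sequences. -/
theorem twEq1_iff_eqS_863 (U : Subgroup G) (y y' : Fin l → G) :
    TwEq1863 U y y' ↔ EqS863 U l (seq863 y) (seq863 y') := by
  have hl : 0 < l := Nat.pos_of_ne_zero (NeZero.ne l)
  have h0val : ((0 : Fin l) : ℕ) = 0 := by simp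
  constructor
  · rintro ⟨u, huU, hu0, rfl⟩
    have hX : seq863 u l = seq863 u 0 := by
      rw [seq863_ge u l le_rfl]
      have := seq863_val u 0
      rw [h0val] at this
      rw [this, hu0]
    refine ⟨seq863 u, ?_, ?_, seq863_ge u l le_rfl, ?_⟩
    · intro j
      unfold seq863
      split_ifs
      · exact huU _
      · exact U.one_mem
    · have := seq863_val u 0
      rw [h0val] at this
      rw [this, hu0]
    · intro j hj
      have h1 := seq863_val (act863 u y) ⟨j, hj⟩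
      have h2 := seq863_val y ⟨j, hj⟩
      have h3 := seq863_val u ⟨j, hj⟩
      have h4 := wrap863 (seq863 u) hX ⟨j, hj⟩
      have h5 := seq863_val u (⟨j, hj⟩ + 1)
      simp only [] at h1 h2 h3 h4 h5
      rw [h1, h2, h3, ← h4, h5]
      rfl
  · rintro ⟨u, huU, hu0, huL, hu⟩
    have hX : u l = u 0 := by rw [huL, hu0]
    refine ⟨res863 l u, fun j => huU _, ?_, ?_⟩
    · show u ((0 : Fin l) : ℕ) = 1
      rw [h0val, hu0]
    · funext j
      have h1 := hu (j : ℕ) j.2
      rw [seq863_val, seq863_val] at h1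
      rw [h1]
      show _ = (res863 l u j)⁻¹ * y j * res863 l u (j + 1)
      show _ = (u (j : ℕ))⁻¹ * y j * u ((j + 1 : Fin l) : ℕ)
      rw [wrap863 u hX j]

section Chain

variable (U : Subgroup G) (φ : ℕ → G → ℂ)
  (hbi : ∀ j, IsBiInv (fun g => g ∈ U) (φ j))
  (hfs : ∀ j, HasFinSupp (fun g => g ∈ U) (φ j))

include hbi in
/-- The pure tensor is invariant under twisted conjugation by `U^l`. -/
theorem tensor_act_863 (u y : Fin l → G) (hu : ∀ j, u j ∈ U) :
    tensor863 φ l (act863 u y) = tensor863 φ l y := by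
  unfold tensor863
  refine Finset.prod_congr rfl (fun j _ => ?_)
  show φ j ((u j)⁻¹ * y j * u (j + 1)) = φ j (y j)
  exact hbi j (u j)⁻¹ (u (j + 1)) (y j) (U.inv_mem (hu j)) (hu _)

include hbi hfs in
/-- **The fibre of the norm.** -/
theorem exists_fibre_reps_863 (f : G → ℂ) (hf : IsConvProd (fun g => g ∈ U) l φ f) (z : G) :
    ∃ P : Finset (Fin l → G), (∀ y ∈ P, nm863 y = z) ∧ (∀ y ∈ P, tensor863 φ l y ≠ 0) ∧
      IsIneq863 (TwEq1863 U) P ∧
      (∀ y, nm863 y = z → tensor863 φ l y ≠ 0 → ∃ y' ∈ P, TwEq1863 U y y') ∧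
      f z = ∑ y ∈ P, tensor863 φ l y := by
  have hl : 0 < l := Nat.pos_of_ne_zero (NeZero.ne l)
  obtain ⟨χ, hχ0, hχ, rfl⟩ := hf
  obtain ⟨P, hP, hsum⟩ := exists_factor_reps_863 U φ hbi hfs l χ hχ0 hχ (l - 1) (by omega) z
  have hl1 : l - 1 + 1 = l := by omega
  rw [hl1] at hP hsum
  have hsr : ∀ a ∈ P, seq863 (res863 l a) = a := fun a ha => seq_res_863 a (hP.junk a ha)
  refine ⟨P.image (res863 l), ?_, ?_, ?_, ?_, ?_⟩
  · intro y hy
    obtain ⟨a, ha, rfl⟩ := Finset.mem_image.mp hy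
    rw [nm_eq_ppS_863, hsr a ha]
    exact hP.prod a ha
  · intro y hy
    obtain ⟨a, ha, rfl⟩ := Finset.mem_image.mp hy
    rw [tensor_eq_wtS_863, hsr a ha]
    exact hP.wt a ha
  · intro y hy y' hy' hyy'
    obtain ⟨a, ha, rfl⟩ := Finset.mem_image.mp hy
    obtain ⟨b, hb, rfl⟩ := Finset.mem_image.mp hy'
    rw [twEq1_iff_eqS_863, hsr a ha, hsr b hb] at hyy'
    rw [hP.ineq a ha b hb hyy']
  · intro y hy hΦ
    rw [nm_eq_ppS_863] at hy
    rw [tensor_eq_wtS_863] at hΦ
    obtain ⟨b, hb, hyb⟩ := hP.cover (seq863 y) hy hΦ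
    refine ⟨res863 l b, Finset.mem_image.mpr ⟨b, hb, rfl⟩, ?_⟩
    rw [twEq1_iff_eqS_863, hsr b hb]
    exact hyb
  · rw [hsum, Finset.sum_image]
    · refine Finset.sum_congr rfl (fun a ha => ?_)
      rw [tensor_eq_wtS_863, hsr a ha]
    · intro a ha b hb hab
      rw [← hsr a ha, ← hsr b hb, hab]

end Chain

/-- **Invariance of `cIndex`** under twisted conjugation by `U^l`. -/
theorem cIndex_act_863 {U : Subgroup G} {Cpt : G → Prop} (hC : CptData863 U Cpt)
    (u y : Fin l → G) (hu : ∀ j, u j ∈ U) :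
    cIndex (fun u : Fin l → G => ∀ j, u j ∈ U)
        (fun y t => t⁻¹ * y * shift863 l t = y ∧ ∀ j, Cpt (t j)) (act863 u y)
      = cIndex (fun u : Fin l → G => ∀ j, u j ∈ U)
          (fun y t => t⁻¹ * y * shift863 l t = y ∧ ∀ j, Cpt (t j)) y := by
  unfold cIndex
  set S : Set (Set (Fin l → G)) := {c | ∃ t : Fin l → G,
    (t⁻¹ * y * shift863 l t = y ∧ ∀ j, Cpt (t j)) ∧
      c = {g | ∃ w : Fin l → G, (∀ j, w j ∈ U) ∧ g = t * w}} with hS
  set S' : Set (Set (Fin l → G)) := {c | ∃ t : Fin l → G,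
    (t⁻¹ * act863 u y * shift863 l t = act863 u y ∧ ∀ j, Cpt (t j)) ∧
      c = {g | ∃ w : Fin l → G, (∀ j, w j ∈ U) ∧ g = t * w}} with hS'
  have himg : S' = (fun c : Set (Fin l → G) => (fun g => u⁻¹ * g) '' c) '' S := by
    ext c
    constructor
    · rintro ⟨t, ⟨ht1, ht2⟩, rfl⟩
      refine ⟨{g | ∃ w : Fin l → G, (∀ j, w j ∈ U) ∧ g = (u * t * u⁻¹) * w},
        ⟨u * t * u⁻¹, ⟨?_, ?_⟩, rfl⟩, ?_⟩
      · have h1 : act863 (u * t * u⁻¹) y = y := by
          rw [act863_mul, act863_mul]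
          have : act863 t (act863 u y) = act863 u y := ht1
          rw [this, act863_inv]
        exact h1
      · intro j
        have := hC.conj (u j)⁻¹ (t j) (ht2 j)
        simpa using this
      · ext g
        constructor
        · rintro ⟨g', ⟨w, hw, rfl⟩, rfl⟩
          refine ⟨u⁻¹ * w, fun j => U.mul_mem (U.inv_mem (hu j)) (hw j), ?_⟩
          show u⁻¹ * (u * t * u⁻¹ * w) = t * (u⁻¹ * w)
          group
        · rintro ⟨w, hw, rfl⟩
          refine ⟨u * t * u⁻¹ * (u * w), ⟨u * w, fun j => U.mul_mem (hu j) (hw j), rfl⟩, ?_⟩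
          show u⁻¹ * (u * t * u⁻¹ * (u * w)) = t * w
          group
    · rintro ⟨c', ⟨t, ⟨ht1, ht2⟩, rfl⟩, rfl⟩
      refine ⟨u⁻¹ * t * u, ⟨?_, ?_⟩, ?_⟩
      · have h1 : act863 (u⁻¹ * t * u) (act863 u y) = act863 u y := by
          rw [← act863_mul]
          have : u * (u⁻¹ * t * u) = t * u := by group
          rw [this, act863_mul]
          have h2 : act863 t y = y := ht1
          rw [h2]
        exact h1
      · intro j
        exact hC.conj (u j) (t j) (ht2 j)
      · ext g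
        constructor
        · rintro ⟨g', ⟨w, hw, rfl⟩, rfl⟩
          refine ⟨u⁻¹ * w, fun j => U.mul_mem (U.inv_mem (hu j)) (hw j), ?_⟩
          show u⁻¹ * (t * w) = u⁻¹ * t * u * (u⁻¹ * w)
          group
        · rintro ⟨w, hw, rfl⟩
          refine ⟨t * (u * w), ⟨u * w, fun j => U.mul_mem (hu j) (hw j), rfl⟩, ?_⟩
          show u⁻¹ * (t * (u * w)) = u⁻¹ * t * u * w
          group
  have hinj : Function.Injective (fun c : Set (Fin l → G) => (fun g => u⁻¹ * g) '' c) :=
    Set.image_injective.mpr (mul_right_injective u⁻¹)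
  show S'.ncard = S.ncard
  rw [himg, Set.ncard_image_of_injective _ hinj]

end Fermat.Agent.LT.T6.H863

end
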