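import Mathlib
import Fermat.Agent.LT.T6.H863.Transfer

/-!
# Row LT, tower T6, leaf T6.16 (`SplitMatchC`) -- helper863, OFF-MAIN

Part 6: THE ABSTRACT THEOREM.  `G` any group, `U ≤ G`, `Cpt` a conjugation-invariant predicate
containing `U`, closed under inverses, and closed under multiplication on the centraliser of
every conjugate of the norm `γ = δ_0 ⋯ δ_{l-1}`; `φ_j` bi-`U`-invariant of finite support modulo
`U`, `f = φ_0 * ⋯ * φ_{l-1}` (`IsConvProd`).  Then the twisted orbit sum of `φ_0 ⊗ ⋯ ⊗ φ_{l-1}` at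
`δ` on `G^l` (cyclic shift) equals the orbit sum of `f` at `γ`:

    `split_match_abs_863`.

Mathlib + `T6/Spec.lean` (frozen) only; every proof is complete.
-/

set_option autoImplicit false

open scoped Classical

noncomputable section

namespace Fermat.Agent.LT.T6.H863

open Fermat.Agent.LT.T6

/-- Extension of a system of pairwise inequivalent elements to one covering a finite set. -/
theorem ext_reps_863 {α : Type*} (r : α → α → Prop) (hr : Equivalence r) (R E : Finset α)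
    (hR : IsIneq863 r R) :
    ∃ R' : Finset α, R ⊆ R' ∧ R' ⊆ R ∪ E ∧ IsIneq863 r R' ∧ ∀ e ∈ E, ∃ h ∈ R', r e h := by
  induction E using Finset.induction_on with
  | empty =>
    exact ⟨R, Finset.Subset.refl _, Finset.subset_union_left, hR, fun e he => by simp at he⟩
  | insert x E hx ih =>
    obtain ⟨R', hRR', hR'E, hR', hcov⟩ := ih
    have hsub : R ∪ E ⊆ R ∪ insert x E :=
      Finset.union_subset_union (Finset.Subset.refl _) (Finset.subset_insert _ _)
    by_cases hex : ∃ h ∈ R', r x h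
    · refine ⟨R', hRR', hR'E.trans hsub, hR', fun e he => ?_⟩
      rcases Finset.mem_insert.mp he with rfl | he
      · exact hex
      · exact hcov e he
    · refine ⟨insert x R', hRR'.trans (Finset.subset_insert _ _), ?_, ?_, fun e he => ?_⟩
      · intro a ha
        rcases Finset.mem_insert.mp ha with rfl | ha
        · exact Finset.mem_union_right _ (Finset.mem_insert_self _ _)
        · exact hsub (hR'E ha)
      · intro a ha b hb hab
        rcases Finset.mem_insert.mp ha with hax | haH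
        · rcases Finset.mem_insert.mp hb with hbx | hbH
          · rw [hax, hbx]
          · exact absurd ⟨b, hbH, hax ▸ hab⟩ hex
        · rcases Finset.mem_insert.mp hb with hbx | hbH
          · exact absurd ⟨a, haH, hbx ▸ hr.symm hab⟩ hex
          · exact hR' a haH b hbH hab
      · rcases Finset.mem_insert.mp he with rfl | he
        · exact ⟨e, Finset.mem_insert_self _ _, hr.refl e⟩
        · obtain ⟨h, hh, heh⟩ := hcov e he
          exact ⟨h, Finset.mem_insert_of_mem hh, heh⟩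

variable {G : Type} [Group G] {l : ℕ} [NeZero l]

/-- Conjugacy under `U`. -/
def ConjU863 (U : Subgroup G) (z z' : G) : Prop := ∃ u : G, u ∈ U ∧ z' = u⁻¹ * z * u

theorem conjU863_equiv (U : Subgroup G) : Equivalence (ConjU863 U) where
  refl z := ⟨1, U.one_mem, by group⟩
  symm := by
    rintro z z' ⟨u, hu, rfl⟩
    exact ⟨u⁻¹, U.inv_mem hu, by group⟩
  trans := by
    rintro z z' z'' ⟨u, hu, rfl⟩ ⟨w, hw, rfl⟩
    exact ⟨u * w, U.mul_mem hu hw, by group⟩

/-- The element of `G^l` with component `g` at `0` and `1` elsewhere. -/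
def single863 (l : ℕ) [NeZero l] (g : G) : Fin l → G := fun j => if j = 0 then g else 1

theorem single863_zero (g : G) : single863 l g 0 = g := if_pos rfl

theorem single863_mem (U : Subgroup G) (g : G) (hg : g ∈ U) (j : Fin l) :
    single863 l g j ∈ U := by
  unfold single863
  split_ifs
  · exact hg
  · exact U.one_mem

/-- **THE ABSTRACT THEOREM.** -/
theorem split_match_abs_863 (U : Subgroup G) (Cpt : G → Prop) (hC : CptData863 U Cpt)
    (φ : ℕ → G → ℂ) (f : G → ℂ)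
    (hbi : ∀ j, IsBiInv (fun g => g ∈ U) (φ j))
    (hfs : ∀ j, HasFinSupp (fun g => g ∈ U) (φ j))
    (hf : IsConvProd (fun g => g ∈ U) l φ f) (δ : Fin l → G)
    (hmul : ∀ z : G, (∃ g : G, z = g⁻¹ * nm863 δ * g) → CptMul863 Cpt z)
    (c c' : ℂ)
    (hc : IsOrbSumGen (shift863 l) (fun u : Fin l → G => ∀ j, u j ∈ U)
      (fun y t => t⁻¹ * y * shift863 l t = y ∧ ∀ j, Cpt (t j)) (tensor863 φ l) δ c)
    (hc' : IsOrbSumGen (MonoidHom.id G) (fun u : G => u ∈ U)
      (fun z t => t⁻¹ * z * t = z ∧ Cpt t) f (nm863 δ) c') :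
    c = c' := by
  obtain ⟨R, hR1, hR2, hR3, rfl⟩ := hc
  obtain ⟨R', hR'1, hR'2, hR'3, rfl⟩ := hc'
  simp only [MonoidHom.id_apply] at hR'1 hR'2 hR'3
  -- notation
  set Φ : (Fin l → G) → ℂ := tensor863 φ l with hΦdef
  set w : (Fin l → G) → ℕ := cIndex (fun u : Fin l → G => ∀ j, u j ∈ U)
    (fun y t => t⁻¹ * y * shift863 l t = y ∧ ∀ j, Cpt (t j)) with hwdef
  set W : G → ℕ := cIndex (fun u : G => u ∈ U) (fun z t => t⁻¹ * z * t = z ∧ Cpt t) with hWdef
  have heq := twEq863_equiv (l := l) U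
  have hΦinv : ∀ u y : Fin l → G, (∀ j, u j ∈ U) → Φ (act863 u y) = Φ y :=
    fun u y hu => tensor_act_863 U φ hbi u y hu
  have hΦcl : ∀ y y', TwEq863 U y y' → Φ y = Φ y' := by
    rintro y y' ⟨u, hu, rfl⟩
    exact (hΦinv u y hu).symm
  have hwcl : ∀ y y', TwEq863 U y y' → w y = w y' := by
    rintro y y' ⟨u, hu, rfl⟩
    exact (cIndex_act_863 hC u y hu).symm
  have hXcl : ∀ y y', TwEq863 U y y' →
      (∃ x : Fin l → G, y = x⁻¹ * δ * shift863 l x) →
      ∃ x : Fin l → G, y' = x⁻¹ * δ * shift863 l x := by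
    rintro y y' ⟨u, hu, rfl⟩ ⟨x, rfl⟩
    exact ⟨x * u, (act863_mul x u δ).symm⟩
  have hnmX : ∀ y : Fin l → G, (∃ x : Fin l → G, y = x⁻¹ * δ * shift863 l x) →
      ∃ g : G, nm863 y = g⁻¹ * nm863 δ * g := by
    rintro y ⟨x, rfl⟩
    exact ⟨x 0, nm863_conj x δ⟩
  -- Step 1: extend `R'`
  set E : Finset G := (R.filter (fun y => Φ y ≠ 0)).image nm863 with hE
  have hR'ineq : IsIneq863 (ConjU863 U) R' := by
    intro a ha b hb ⟨u, hu, hab⟩
    exact hR'2 a ha b hb ⟨u, hu, hab⟩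
  obtain ⟨R'', hR'R'', hR''sub, hR''ineq, hR''cov⟩ :=
    ext_reps_863 (ConjU863 U) (conjU863_equiv U) R' E hR'ineq
  -- Step 2
  have hR''O : ∀ z ∈ R'', ∃ g : G, z = g⁻¹ * nm863 δ * g := by
    intro z hz
    rcases Finset.mem_union.mp (hR''sub hz) with hz' | hz'
    · exact hR'1 z hz'
    · obtain ⟨y, hy, rfl⟩ := Finset.mem_image.mp hz'
      exact hnmX y (hR1 y (Finset.mem_filter.mp hy).1)
  -- Step 3
  have hstep3 : ∑ z ∈ R', f z * (W z : ℂ) = ∑ z ∈ R'', f z * (W z : ℂ) := by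
    refine Finset.sum_subset hR'R'' (fun z hz hz' => ?_)
    have hfz : f z = 0 := by
      by_contra hne
      obtain ⟨z', hz'R, u, hu, hzu⟩ := hR'3 z (hR''O z hz) hne
      have h1 : ConjU863 U z' z := ⟨u, hu, hzu⟩
      have h2 : z' = z := hR''ineq z' (hR'R'' hz'R) z hz h1
      exact hz' (h2 ▸ hz'R)
    rw [hfz, zero_mul]
  rw [hstep3]
  -- Step 4: the fibres
  choose Pz hPn hPΦ hPi hPc hPs using
    (fun z : G => exists_fibre_reps_863 U φ hbi hfs f hf z)
  set T : Finset (Fin l → G) := R''.biUnion Pz with hT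
  have hTmem : ∀ y ∈ T, nm863 y ∈ R'' ∧ y ∈ Pz (nm863 y) := by
    intro y hy
    obtain ⟨z, hz, hyz⟩ := Finset.mem_biUnion.mp hy
    have := hPn z y hyz
    rw [this]
    exact ⟨hz, hyz⟩
  have hTX : ∀ y ∈ T, ∃ x : Fin l → G, y = x⁻¹ * δ * shift863 l x := by
    intro y hy
    obtain ⟨g, hg⟩ := hR''O _ (hTmem y hy).1
    obtain ⟨x, -, hx⟩ := tw_exists_863 δ y g hg
    exact ⟨x, hx⟩
  -- Step 5
  obtain ⟨R₂, hR₂T, hR₂ineq, hR₂cov⟩ := exists_reps_863 (TwEq863 U) heq T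
  -- Step 6
  set F : (Fin l → G) → ℂ := fun y =>
    if (∃ x : Fin l → G, y = x⁻¹ * δ * shift863 l x) then Φ y * (w y : ℂ) else 0 with hFdef
  have hFX : ∀ y, (∃ x : Fin l → G, y = x⁻¹ * δ * shift863 l x) → F y = Φ y * (w y : ℂ) :=
    fun y hy => if_pos hy
  have hFnX : ∀ y, ¬ (∃ x : Fin l → G, y = x⁻¹ * δ * shift863 l x) → F y = 0 :=
    fun y hy => if_neg hy
  have hFcl : ∀ y y', TwEq863 U y y' → F y = F y' := by
    intro y y' hyy'
    by_cases hX : ∃ x : Fin l → G, y = x⁻¹ * δ * shift863 l x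
    · rw [hFX y hX, hFX y' (hXcl y y' hyy' hX), hΦcl y y' hyy', hwcl y y' hyy']
    · have hX' : ¬ ∃ x : Fin l → G, y' = x⁻¹ * δ * shift863 l x :=
        fun h => hX (hXcl y' y (heq.symm hyy') h)
      rw [hFnX y hX, hFnX y' hX']
  have hFne : ∀ y, F y ≠ 0 →
      (∃ x : Fin l → G, y = x⁻¹ * δ * shift863 l x) ∧ Φ y ≠ 0 := by
    intro y hy
    by_cases hX : ∃ x : Fin l → G, y = x⁻¹ * δ * shift863 l x
    · refine ⟨hX, ?_⟩
      rw [hFX y hX] at hy
      exact left_ne_zero_of_mul hy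
    · exfalso
      apply hy
      exact hFnX y hX
  have hRcov : Covers863 (TwEq863 U) F R := by
    intro y hy
    obtain ⟨hX, hΦ⟩ := hFne y hy
    obtain ⟨y', hy', u, hu, hyu⟩ := hR3 y hX hΦ
    exact ⟨y', hy', heq.symm ⟨u, hu, hyu⟩⟩
  have hR₂cov' : Covers863 (TwEq863 U) F R₂ := by
    intro y hy
    obtain ⟨r, hr, hyr⟩ := hRcov y hy
    have hΦr : Φ r ≠ 0 := by
      rw [← hΦcl y r hyr]
      exact (hFne y hy).2
    have hnE : nm863 r ∈ E :=
      Finset.mem_image.mpr ⟨r, Finset.mem_filter.mpr ⟨hr, hΦr⟩, rfl⟩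
    obtain ⟨z, hz, u₀, hu₀, hzu⟩ := hR''cov _ hnE
    set y₁ : Fin l → G := act863 (single863 l u₀) r with hy₁
    have hy₁n : nm863 y₁ = z := by
      rw [hy₁, nm863_act, single863_zero, hzu]
    have hy₁Φ : Φ y₁ ≠ 0 := by
      rw [hy₁, hΦinv _ _ (single863_mem U u₀ hu₀)]
      exact hΦr
    obtain ⟨y₀, hy₀, hy₁₀⟩ := hPc z y₁ hy₁n hy₁Φ
    have hy₀T : y₀ ∈ T := Finset.mem_biUnion.mpr ⟨z, hz, hy₀⟩
    obtain ⟨r₂, hr₂, hy₀r₂⟩ := hR₂cov y₀ hy₀T
    refine ⟨r₂, hr₂, ?_⟩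
    have h1 : TwEq863 U r y₁ := ⟨single863 l u₀, single863_mem U u₀ hu₀, rfl⟩
    exact heq.trans hyr (heq.trans h1 (heq.trans hy₁₀.toTwEq hy₀r₂))
  have hRineq : IsIneq863 (TwEq863 U) R := by
    intro a ha b hb ⟨u, hu, hab⟩
    exact hR2 a ha b hb ⟨u, hu, hab⟩
  have hstep6 : ∑ y ∈ R, Φ y * (w y : ℂ) = ∑ y ∈ R₂, Φ y * (w y : ℂ) := by
    have h1 : ∑ y ∈ R, Φ y * (w y : ℂ) = ∑ y ∈ R, F y :=
      Finset.sum_congr rfl (fun y hy => (hFX y (hR1 y hy)).symm)
    have h2 : ∑ y ∈ R₂, Φ y * (w y : ℂ) = ∑ y ∈ R₂, F y :=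
      Finset.sum_congr rfl (fun y hy => (hFX y (hTX y (hR₂T hy))).symm)
    rw [h1, h2]
    exact sum_reps_eq_863 (TwEq863 U) heq F hFcl R R₂ hRineq hR₂ineq hRcov hR₂cov'
  rw [hstep6]
  -- Step 7: the counting lemma at the elements of `R₂`
  have hsame : ∀ r ∈ T, ∀ y ∈ T, TwEq863 U r y → nm863 y = nm863 r := by
    intro r hr y hy ⟨u, hu, hyu⟩
    have h1 : ConjU863 U (nm863 r) (nm863 y) := ⟨u 0, hu 0, by rw [hyu, nm863_act]⟩
    exact (hR''ineq _ (hTmem r hr).1 _ (hTmem y hy).1 h1).symm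
  have hfilter : ∀ r ∈ T, T.filter (fun y => TwEq863 U r y)
      = (Pz (nm863 r)).filter (fun y => TwEq863 U r y) := by
    intro r hr
    ext y
    simp only [Finset.mem_filter]
    constructor
    · rintro ⟨hy, hry⟩
      refine ⟨?_, hry⟩
      have := (hTmem y hy).2
      rwa [hsame r hr y hy hry] at this
    · rintro ⟨hy, hry⟩
      exact ⟨Finset.mem_biUnion.mpr ⟨_, (hTmem r hr).1, hy⟩, hry⟩
  have hcount : ∀ r ∈ T, (W (nm863 r) : ℂ) * ((T.filter (fun y => TwEq863 U r y)).card : ℂ)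
      = (w r : ℂ) := by
    intro r hr
    have h1 := count_863 hC r (hmul _ (hR''O _ (hTmem r hr).1)) Φ hΦinv
      (hPΦ _ r (hTmem r hr).2) (Pz (nm863 r)) (hPn _) (hPi _) (hPc _)
    rw [hfilter r hr, ← Nat.cast_mul]
    exact congrArg _ h1
  -- Step 8
  choose! ρ hρ using hR₂cov
  have hρiff : ∀ y ∈ T, ∀ r ∈ R₂, ρ y = r ↔ TwEq863 U r y := by
    intro y hy r hr
    constructor
    · rintro rfl
      exact heq.symm (hρ y hy).2
    · intro hry
      exact hR₂ineq _ (hρ y hy).1 r hr (heq.trans (heq.symm (hρ y hy).2) (heq.symm hry))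
  have hstep8 : ∑ r ∈ R₂, Φ r * (w r : ℂ) = ∑ y ∈ T, Φ y * (W (nm863 y) : ℂ) := by
    rw [← Finset.sum_fiberwise_of_maps_to (g := ρ) (t := R₂) (fun y hy => (hρ y hy).1)]
    refine Finset.sum_congr rfl (fun r hr => ?_)
    have hrT : r ∈ T := hR₂T hr
    have hfil : T.filter (fun y => ρ y = r) = T.filter (fun y => TwEq863 U r y) := by
      ext y
      simp only [Finset.mem_filter]
      constructor
      · rintro ⟨hy, h⟩
        exact ⟨hy, (hρiff y hy r hr).mp h⟩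
      · rintro ⟨hy, h⟩
        exact ⟨hy, (hρiff y hy r hr).mpr h⟩
    rw [hfil]
    have hconst : ∀ y ∈ T.filter (fun y => TwEq863 U r y),
        Φ y * (W (nm863 y) : ℂ) = Φ r * (W (nm863 r) : ℂ) := by
      intro y hy
      obtain ⟨hyT, hry⟩ := Finset.mem_filter.mp hy
      rw [hsame r hrT y hyT hry, ← hΦcl r y hry]
    rw [Finset.sum_congr rfl hconst, Finset.sum_const, nsmul_eq_mul, ← hcount r hrT]
    ring
  rw [hstep8]
  -- Step 9
  rw [hT, Finset.sum_biUnion]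
  · refine Finset.sum_congr rfl (fun z _ => ?_)
    rw [hPs z, Finset.sum_mul]
    refine Finset.sum_congr rfl (fun y hy => ?_)
    rw [hPn z y hy]
  · intro z _ z' _ hne
    rw [Function.onFun, Finset.disjoint_left]
    intro y hy hy'
    exact hne ((hPn z y hy).symm.trans (hPn z' y hy'))

end Fermat.Agent.LT.T6.H863

end
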