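import Mathlib
import Fermat.Agent.LT.T6.H863.Assemble

/-!
# Row LT, tower T6, leaf T6.16 (`SplitMatchC`) -- helper863, OFF-MAIN

Part 7: the instance `G = GL₂(k)`, `k` a field with a valuation in `ℤᵐ⁰`.

* `Ugrp863 n`   : the principal congruence subgroup `U(n)` as a `Subgroup` (`InU n` is its carrier);
* `Cpt863`      : integral trace, unit determinant;
* `cptData_863` : `Cpt863` is conjugation invariant, contains `U(n)`, is closed under inverses;
* `cptMul_863`  : `Cpt863` is closed under multiplication on the centraliser of a regular element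
  (the centraliser is `k[z]`; `X = tr (t t')` is a root of
  `X² - τ τ' X + (Δ τ'² + Δ' τ² - 4 Δ Δ')`, hence integral).

Mathlib + `T6/Spec.lean` (frozen) only; every proof is complete.
-/

set_option autoImplicit false

open scoped Classical

noncomputable section

namespace Fermat.Agent.LT.T6.H863

open Fermat.Agent.LT.T6

set_option linter.unusedSectionVars false

variable {k : Type} [Field k] [Valued k Γ₀]

/-! ### Valuations -/

theorem exp_neg_le_one_863 (n : ℕ) : WithZero.exp (-(n : ℤ)) ≤ (1 : Γ₀) := by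
  rw [← WithZero.exp_zero, WithZero.exp_le_exp]
  omega

/-- A root of a monic quadratic polynomial with integral coefficients is integral. -/
theorem val_le_one_of_quad_863 (X s p : k) (hs : Valued.v s ≤ 1) (hp : Valued.v p ≤ 1)
    (h : X ^ 2 - s * X + p = 0) : Valued.v X ≤ 1 := by
  by_contra hX
  rw [not_le] at hX
  have hX0 : (0 : Γ₀) < Valued.v X := lt_trans zero_lt_one hX
  have h1 : X ^ 2 = s * X - p := by linear_combination h
  have h2 : Valued.v (X ^ 2) ≤ Valued.v X := by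
    rw [h1]
    refine Valuation.map_sub_le _ ?_ (hp.trans hX.le)
    rw [map_mul]
    calc Valued.v s * Valued.v X ≤ 1 * Valued.v X := mul_le_mul_left hs _
      _ = Valued.v X := one_mul _
  have h3 : Valued.v X < Valued.v (X ^ 2) := by
    rw [pow_two, map_mul]
    calc Valued.v X = Valued.v X * 1 := (mul_one _).symm
      _ < Valued.v X * Valued.v X := by
        exact mul_lt_mul_of_pos_left hX hX0
  exact absurd h2 (not_le.mpr h3)

theorem val_four_le_one_863 : Valued.v (4 : k) ≤ 1 := by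
  have h1 : Valued.v (1 : k) ≤ 1 := le_of_eq (map_one _)
  have h2 : Valued.v ((1 : k) + 1) ≤ 1 := Valuation.map_add_le _ h1 h1
  have h4 : Valued.v (((1 : k) + 1) + (1 + 1)) ≤ 1 := Valuation.map_add_le _ h2 h2
  have : (4 : k) = ((1 : k) + 1) + (1 + 1) := by norm_num
  rw [this]
  exact h4

/-- `a b = 1`, `a ≤ 1`, `b ≤ 1` in `ℤᵐ⁰` force `a = 1`. -/
theorem eq_one_of_mul_eq_one_863 (a b : Γ₀) (ha : a ≤ 1) (hb : b ≤ 1) (hab : a * b = 1) :
    a = 1 := by
  refine le_antisymm ha ?_
  calc (1 : Γ₀) = a * b := hab.symm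
    _ ≤ a * 1 := mul_le_mul_right hb a
    _ = a := mul_one a

/-! ### Matrices close to `1` -/

/-- `A ≡ 1 mod ϖⁿ` entrywise. -/
def NearOne863 (n : ℕ) (A : Matrix (Fin 2) (Fin 2) k) : Prop :=
  ∀ i j : Fin 2, Valued.v (A i j - (1 : Matrix (Fin 2) (Fin 2) k) i j) ≤ WithZero.exp (-(n : ℤ))

theorem nearOne_one_863 (n : ℕ) : NearOne863 n (1 : Matrix (Fin 2) (Fin 2) k) := by
  intro i j
  rw [sub_self, map_zero]
  exact zero_le

theorem nearOne_mul_863 (n : ℕ) (A B : Matrix (Fin 2) (Fin 2) k) (hA : NearOne863 n A)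
    (hB : NearOne863 n B) : NearOne863 n (A * B) := by
  intro i j
  have hmat : A * B - 1 = (A - 1) + (B - 1) + (A - 1) * (B - 1) := by noncomm_ring
  have key : (A * B) i j - (1 : Matrix (Fin 2) (Fin 2) k) i j
      = (A i j - (1 : Matrix (Fin 2) (Fin 2) k) i j) + (B i j - (1 : Matrix (Fin 2) (Fin 2) k) i j)
        + ∑ m : Fin 2, (A i m - (1 : Matrix (Fin 2) (Fin 2) k) i m)
            * (B m j - (1 : Matrix (Fin 2) (Fin 2) k) m j) := by
    have := congrFun (congrFun hmat i) j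
    simpa only [Matrix.sub_apply, Matrix.add_apply, Matrix.mul_apply] using this
  rw [key]
  refine Valuation.map_add_le _ (Valuation.map_add_le _ (hA i j) (hB i j)) ?_
  refine Valuation.map_sum_le _ (fun m _ => ?_)
  rw [map_mul]
  calc Valued.v (A i m - (1 : Matrix (Fin 2) (Fin 2) k) i m)
        * Valued.v (B m j - (1 : Matrix (Fin 2) (Fin 2) k) m j)
      ≤ WithZero.exp (-(n : ℤ)) * 1 :=
        mul_le_mul' (hA i m) ((hB m j).trans (exp_neg_le_one_863 n))
    _ = WithZero.exp (-(n : ℤ)) := mul_one _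

/-- The entries of a matrix close to `1` are integral. -/
theorem nearOne_entry_863 (n : ℕ) (A : Matrix (Fin 2) (Fin 2) k) (hA : NearOne863 n A)
    (i j : Fin 2) : Valued.v (A i j) ≤ 1 := by
  have h1 : Valued.v ((1 : Matrix (Fin 2) (Fin 2) k) i j) ≤ 1 := by
    by_cases hij : i = j
    · rw [hij, Matrix.one_apply_eq, map_one]
    · rw [Matrix.one_apply_ne hij, map_zero]
      exact zero_le
  have h2 : A i j = (A i j - (1 : Matrix (Fin 2) (Fin 2) k) i j)
      + (1 : Matrix (Fin 2) (Fin 2) k) i j := by ring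
  rw [h2]
  exact Valuation.map_add_le _ ((hA i j).trans (exp_neg_le_one_863 n)) h1

theorem val_trace_le_863 (A : Matrix (Fin 2) (Fin 2) k) (hA : ∀ i j, Valued.v (A i j) ≤ 1) :
    Valued.v A.trace ≤ 1 := by
  rw [Matrix.trace_fin_two]
  exact Valuation.map_add_le _ (hA 0 0) (hA 1 1)

theorem val_det_le_863 (A : Matrix (Fin 2) (Fin 2) k) (hA : ∀ i j, Valued.v (A i j) ≤ 1) :
    Valued.v A.det ≤ 1 := by
  rw [Matrix.det_fin_two]
  refine Valuation.map_sub_le _ ?_ ?_
  · rw [map_mul]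
    exact mul_le_one' (hA 0 0) (hA 1 1)
  · rw [map_mul]
    exact mul_le_one' (hA 0 1) (hA 1 0)

/-! ### The subgroup `U(n)` -/

theorem inU_iff_863 (n : ℕ) (g : GL (Fin 2) k) :
    InU n g ↔ NearOne863 n (g : Matrix (Fin 2) (Fin 2) k)
      ∧ NearOne863 n ((g⁻¹ : GL (Fin 2) k) : Matrix (Fin 2) (Fin 2) k) := by
  constructor
  · intro h
    exact ⟨fun i j => (h i j).1, fun i j => (h i j).2⟩
  · rintro ⟨h1, h2⟩ i j
    exact ⟨h1 i j, h2 i j⟩

/-- The principal congruence subgroup `U(n)`. -/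
def Ugrp863 (n : ℕ) : Subgroup (GL (Fin 2) k) where
  carrier := {g | InU n g}
  one_mem' := by
    show InU n 1
    rw [inU_iff_863]
    refine ⟨nearOne_one_863 n, ?_⟩
    rw [inv_one]
    exact nearOne_one_863 n
  mul_mem' := by
    intro a b ha hb
    have ha' : InU n a := ha
    have hb' : InU n b := hb
    show InU n (a * b)
    rw [inU_iff_863] at ha' hb' ⊢
    refine ⟨?_, ?_⟩
    · rw [Matrix.GeneralLinearGroup.coe_mul]
      exact nearOne_mul_863 n _ _ ha'.1 hb'.1
    · rw [mul_inv_rev, Matrix.GeneralLinearGroup.coe_mul]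
      exact nearOne_mul_863 n _ _ hb'.2 ha'.2
  inv_mem' := by
    intro a ha
    have ha' : InU n a := ha
    show InU n a⁻¹
    rw [inU_iff_863] at ha' ⊢
    refine ⟨ha'.2, ?_⟩
    rw [inv_inv]
    exact ha'.1

theorem mem_Ugrp863 (n : ℕ) (g : GL (Fin 2) k) : g ∈ Ugrp863 (k := k) n ↔ InU n g := Iff.rfl

/-! ### The compactness predicate -/

/-- Integral trace, unit determinant. -/
def Cpt863 (t : GL (Fin 2) k) : Prop :=
  Valued.v (t : Matrix (Fin 2) (Fin 2) k).trace ≤ 1 ∧
    Valued.v (t : Matrix (Fin 2) (Fin 2) k).det = 1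

theorem coe_mul_inv_863 (g : GL (Fin 2) k) :
    (g : Matrix (Fin 2) (Fin 2) k) * ((g⁻¹ : GL (Fin 2) k) : Matrix (Fin 2) (Fin 2) k) = 1 := by
  rw [← Matrix.GeneralLinearGroup.coe_mul, mul_inv_cancel]
  rfl

theorem coe_inv_mul_863 (g : GL (Fin 2) k) :
    ((g⁻¹ : GL (Fin 2) k) : Matrix (Fin 2) (Fin 2) k) * (g : Matrix (Fin 2) (Fin 2) k) = 1 := by
  rw [← Matrix.GeneralLinearGroup.coe_mul, inv_mul_cancel]
  rfl

theorem trace_conj_863 (g t : GL (Fin 2) k) :
    ((g⁻¹ * t * g : GL (Fin 2) k) : Matrix (Fin 2) (Fin 2) k).trace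
      = (t : Matrix (Fin 2) (Fin 2) k).trace := by
  rw [Matrix.GeneralLinearGroup.coe_mul, Matrix.GeneralLinearGroup.coe_mul,
    Matrix.trace_mul_comm, ← Matrix.mul_assoc, coe_mul_inv_863, Matrix.one_mul]

theorem det_conj_863 (g t : GL (Fin 2) k) :
    ((g⁻¹ * t * g : GL (Fin 2) k) : Matrix (Fin 2) (Fin 2) k).det
      = (t : Matrix (Fin 2) (Fin 2) k).det := by
  rw [Matrix.GeneralLinearGroup.coe_mul, Matrix.GeneralLinearGroup.coe_mul, Matrix.det_mul,
    Matrix.det_mul]
  have h : ((g⁻¹ : GL (Fin 2) k) : Matrix (Fin 2) (Fin 2) k).det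
      * (g : Matrix (Fin 2) (Fin 2) k).det = 1 := by
    rw [← Matrix.det_mul, coe_inv_mul_863, Matrix.det_one]
  linear_combination (t : Matrix (Fin 2) (Fin 2) k).det * h

theorem disc_conj_863 (g t : GL (Fin 2) k) : disc (g⁻¹ * t * g) = disc t := by
  unfold disc
  rw [trace_conj_863, det_conj_863]

theorem det_inv_mul_863 (t : GL (Fin 2) k) :
    (t : Matrix (Fin 2) (Fin 2) k).det
      * ((t⁻¹ : GL (Fin 2) k) : Matrix (Fin 2) (Fin 2) k).det = 1 := by
  rw [← Matrix.det_mul, coe_mul_inv_863, Matrix.det_one]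

/-- `tr (t⁻¹) · det t = tr t` for `2 × 2` matrices. -/
theorem trace_inv_mul_863 (t : GL (Fin 2) k) :
    ((t⁻¹ : GL (Fin 2) k) : Matrix (Fin 2) (Fin 2) k).trace * (t : Matrix (Fin 2) (Fin 2) k).det
      = (t : Matrix (Fin 2) (Fin 2) k).trace := by
  have h' := coe_inv_mul_863 t
  set A : Matrix (Fin 2) (Fin 2) k := (t : Matrix (Fin 2) (Fin 2) k) with hA
  set B : Matrix (Fin 2) (Fin 2) k := ((t⁻¹ : GL (Fin 2) k) : Matrix (Fin 2) (Fin 2) k) with hB
  have f00 := congrFun (congrFun h' 0) 0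
  have f11 := congrFun (congrFun h' 1) 1
  have f01 := congrFun (congrFun h' 0) 1
  have f10 := congrFun (congrFun h' 1) 0
  simp only [Matrix.mul_apply, Fin.sum_univ_two, Matrix.one_apply_eq, ne_eq, zero_ne_one,
    not_false_eq_true, one_ne_zero, Matrix.one_apply_ne] at f00 f11 f01 f10
  rw [Matrix.trace_fin_two, Matrix.trace_fin_two, Matrix.det_fin_two]
  linear_combination (A 1 1) * f00 - (A 1 0) * f01 + (A 0 0) * f11 - (A 0 1) * f10

theorem cpt_ofU_863 (n : ℕ) (u : GL (Fin 2) k) (hu : InU n u) : Cpt863 u := by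
  rw [inU_iff_863] at hu
  have h1 := nearOne_entry_863 n _ hu.1
  have h2 := nearOne_entry_863 n _ hu.2
  refine ⟨val_trace_le_863 _ h1, ?_⟩
  refine eq_one_of_mul_eq_one_863 _ _ (val_det_le_863 _ h1) (val_det_le_863 _ h2) ?_
  rw [← map_mul, det_inv_mul_863, map_one]

theorem cpt_inv_863 (t : GL (Fin 2) k) (ht : Cpt863 t) : Cpt863 t⁻¹ := by
  obtain ⟨h1, h2⟩ := ht
  have hd : Valued.v ((t⁻¹ : GL (Fin 2) k) : Matrix (Fin 2) (Fin 2) k).det = 1 := by
    have h := congrArg Valued.v (det_inv_mul_863 t)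
    rw [map_mul, h2, one_mul, map_one] at h
    exact h
  refine ⟨?_, hd⟩
  have h := congrArg Valued.v (trace_inv_mul_863 t)
  rw [map_mul, h2, mul_one] at h
  rw [h]
  exact h1

theorem cptData_863 (n : ℕ) : CptData863 (Ugrp863 (k := k) n) Cpt863 where
  conj := by
    intro g t ht
    unfold Cpt863 at ht ⊢
    rw [trace_conj_863, det_conj_863]
    exact ht
  ofU := fun u hu => cpt_ofU_863 n u hu
  inv := cpt_inv_863

/-! ### The centraliser of a regular element -/

/-- The centraliser of a regular `2 × 2` matrix `z`: the traceless part of a commuting matrix is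
proportional to the traceless part of `z`. -/
theorem centraliser_863 (a b c d p q r s : k)
    (hreg : (a + d) ^ 2 - 4 * (a * d - b * c) ≠ 0)
    (h1 : b * r = q * c) (h2 : q * (a - d) = b * (p - s)) (h3 : c * (p - s) = r * (a - d)) :
    ∃ β : k, q = β * b ∧ r = β * c ∧ p - s = β * (a - d) := by
  by_cases hb : b = 0
  · by_cases hc : c = 0
    · have had : a - d ≠ 0 := by
        intro had
        apply hreg
        rw [hb, hc]
        have : a = d := by linear_combination had
        rw [this]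
        ring
      refine ⟨(p - s) / (a - d), ?_, ?_, ?_⟩
      · rw [hb, mul_zero]
        have : q * (a - d) = 0 := by rw [h2, hb, zero_mul]
        rcases mul_eq_zero.mp this with h | h
        · exact h
        · exact absurd h had
      · rw [hc, mul_zero]
        have : r * (a - d) = 0 := by rw [← h3, hc, zero_mul]
        rcases mul_eq_zero.mp this with h | h
        · exact h
        · exact absurd h had
      · field_simp
    · refine ⟨r / c, ?_, ?_, ?_⟩
      · field_simp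
        linear_combination -h1
      · field_simp
      · field_simp
        linear_combination h3
  · refine ⟨q / b, ?_, ?_, ?_⟩
    · field_simp
    · field_simp
      linear_combination h1
    · field_simp
      linear_combination -h2

/-- The quadratic relation satisfied by `X = tr (t t')` for `t, t'` in the centraliser. -/
theorem quad_identity_863 (a b c d p q r s p' q' r' s' β β' : k)
    (hq : q = β * b) (hr : r = β * c) (hp : p - s = β * (a - d))
    (hq' : q' = β' * b) (hr' : r' = β' * c) (hp' : p' - s' = β' * (a - d)) :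
    (p * p' + q * r' + (r * q' + s * s')) ^ 2
      - ((p + s) * (p' + s')) * (p * p' + q * r' + (r * q' + s * s'))
      + ((p * s - q * r) * (p' + s') ^ 2 + (p' * s' - q' * r') * (p + s) ^ 2
          - 4 * (p * s - q * r) * (p' * s' - q' * r')) = 0 := by
  have hp1 : p = s + β * (a - d) := by linear_combination hp
  have hp1' : p' = s' + β' * (a - d) := by linear_combination hp'
  subst hq hr hq' hr' hp1 hp1'
  ring

/-- Commutation in `GL₂` in terms of the entries. -/
theorem comm_entries_863 (z t : GL (Fin 2) k) (h : t⁻¹ * z * t = z) :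
    (z : Matrix (Fin 2) (Fin 2) k) 0 1 * (t : Matrix (Fin 2) (Fin 2) k) 1 0
        = (t : Matrix (Fin 2) (Fin 2) k) 0 1 * (z : Matrix (Fin 2) (Fin 2) k) 1 0 ∧
      (t : Matrix (Fin 2) (Fin 2) k) 0 1
          * ((z : Matrix (Fin 2) (Fin 2) k) 0 0 - (z : Matrix (Fin 2) (Fin 2) k) 1 1)
        = (z : Matrix (Fin 2) (Fin 2) k) 0 1
          * ((t : Matrix (Fin 2) (Fin 2) k) 0 0 - (t : Matrix (Fin 2) (Fin 2) k) 1 1) ∧
      (z : Matrix (Fin 2) (Fin 2) k) 1 0
          * ((t : Matrix (Fin 2) (Fin 2) k) 0 0 - (t : Matrix (Fin 2) (Fin 2) k) 1 1)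
        = (t : Matrix (Fin 2) (Fin 2) k) 1 0
          * ((z : Matrix (Fin 2) (Fin 2) k) 0 0 - (z : Matrix (Fin 2) (Fin 2) k) 1 1) := by
  have hcomm : z * t = t * z := by
    calc z * t = t * (t⁻¹ * z * t) := by group
      _ = t * z := by rw [h]
  have hm : (z : Matrix (Fin 2) (Fin 2) k) * (t : Matrix (Fin 2) (Fin 2) k)
      = (t : Matrix (Fin 2) (Fin 2) k) * (z : Matrix (Fin 2) (Fin 2) k) := by
    rw [← Matrix.GeneralLinearGroup.coe_mul, ← Matrix.GeneralLinearGroup.coe_mul, hcomm]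
  set Z : Matrix (Fin 2) (Fin 2) k := (z : Matrix (Fin 2) (Fin 2) k) with hZ
  set T : Matrix (Fin 2) (Fin 2) k := (t : Matrix (Fin 2) (Fin 2) k) with hT
  have e00 := congrFun (congrFun hm 0) 0
  have e01 := congrFun (congrFun hm 0) 1
  have e10 := congrFun (congrFun hm 1) 0
  simp only [Matrix.mul_apply, Fin.sum_univ_two] at e00 e01 e10
  refine ⟨?_, ?_, ?_⟩
  · linear_combination e00
  · linear_combination e01
  · linear_combination e10

/-- **`Cpt863` is closed under multiplication on the centraliser of a regular element.** -/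
theorem cptMul_863 (z : GL (Fin 2) k) (hz : IsReg z) : CptMul863 (Cpt863 (k := k)) z := by
  intro t t' ht ht' hc hc'
  obtain ⟨hc1, hc2⟩ := hc
  obtain ⟨hc1', hc2'⟩ := hc'
  have hdet : Valued.v ((t * t' : GL (Fin 2) k) : Matrix (Fin 2) (Fin 2) k).det = 1 := by
    rw [Matrix.GeneralLinearGroup.coe_mul, Matrix.det_mul, map_mul, hc2, hc2', one_mul]
  refine ⟨?_, hdet⟩
  have hreg : ((z : Matrix (Fin 2) (Fin 2) k) 0 0 + (z : Matrix (Fin 2) (Fin 2) k) 1 1) ^ 2
      - 4 * ((z : Matrix (Fin 2) (Fin 2) k) 0 0 * (z : Matrix (Fin 2) (Fin 2) k) 1 1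
        - (z : Matrix (Fin 2) (Fin 2) k) 0 1 * (z : Matrix (Fin 2) (Fin 2) k) 1 0) ≠ 0 := by
    have h := hz.ne_zero
    unfold disc at h
    rw [Matrix.trace_fin_two, Matrix.det_fin_two] at h
    exact h
  obtain ⟨e1, e2, e3⟩ := comm_entries_863 z t ht
  obtain ⟨e1', e2', e3'⟩ := comm_entries_863 z t' ht'
  obtain ⟨β, hq, hr, hp⟩ := centraliser_863 _ _ _ _ _ _ _ _ hreg e1 e2 e3
  obtain ⟨β', hq', hr', hp'⟩ := centraliser_863 _ _ _ _ _ _ _ _ hreg e1' e2' e3'
  have hquad := quad_identity_863 _ _ _ _ _ _ _ _ _ _ _ _ β β' hq hr hp hq' hr' hp'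
  rw [Matrix.trace_fin_two] at hc1 hc1'
  rw [Matrix.det_fin_two] at hc2 hc2'
  rw [Matrix.GeneralLinearGroup.coe_mul, Matrix.trace_fin_two]
  simp only [Matrix.mul_apply, Fin.sum_univ_two]
  set T : Matrix (Fin 2) (Fin 2) k := (t : Matrix (Fin 2) (Fin 2) k) with hT
  set T' : Matrix (Fin 2) (Fin 2) k := (t' : Matrix (Fin 2) (Fin 2) k) with hT'
  refine val_le_one_of_quad_863 _ ((T 0 0 + T 1 1) * (T' 0 0 + T' 1 1))
    ((T 0 0 * T 1 1 - T 0 1 * T 1 0) * (T' 0 0 + T' 1 1) ^ 2
      + (T' 0 0 * T' 1 1 - T' 0 1 * T' 1 0) * (T 0 0 + T 1 1) ^ 2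
      - 4 * (T 0 0 * T 1 1 - T 0 1 * T 1 0) * (T' 0 0 * T' 1 1 - T' 0 1 * T' 1 0)) ?_ ?_ hquad
  · rw [map_mul]
    exact mul_le_one' hc1 hc1'
  · refine Valuation.map_sub_le _ (Valuation.map_add_le _ ?_ ?_) ?_
    · rw [map_mul, map_pow, hc2, one_mul]
      exact pow_le_one' hc1' 2
    · rw [map_mul, map_pow, hc2', one_mul]
      exact pow_le_one' hc1 2
    · rw [map_mul, map_mul, hc2, hc2', mul_one, mul_one]
      exact val_four_le_one_863

end Fermat.Agent.LT.T6.H863

end
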