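import Mathlib
import Fermat.Agent.LT.T6.H863.GL2

/-!
# Row LT, tower T6, leaf T6.16 (`SplitMatchC`) -- helper863, OFF-MAIN

Part 8: **`splitMatchC_863 : Fermat.Agent.LT.T6.SplitMatchC`**, VERBATIM against the frozen
`Fermat/Agent/LT/T6/Spec.lean` (helper22, sha256 89f8f8b8...).

Matching at a split place: for `δ = (δ_0, …, δ_{l-1}) ∈ GL₂(k)^l` with regular norm
`γ = δ_0 δ_1 ⋯ δ_{l-1}`, bi-`U(n)`-invariant `φ_j` of finite support and
`f = φ_0 * ⋯ * φ_{l-1}`, the twisted orbit sum of `φ_0 ⊗ ⋯ ⊗ φ_{l-1}` at `δ` (cyclic shift on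
`GL₂(k)^l`) equals the orbit sum of `f` at `γ`.

The proof is the abstract theorem `split_match_abs_863` (any group, `Assemble.lean`) applied to
`G = GL₂(k)`, `U = U(n)`, `Cpt = ` integral trace and unit determinant (`GL2.lean`).  The
hypothesis `IsLocalField k q` is not used.

Mathlib + `T6/Spec.lean` (frozen) only; every proof is complete.
-/

set_option autoImplicit false

open scoped Classical

noncomputable section

namespace Fermat.Agent.LT.T6.H863

open Fermat.Agent.LT.T6

theorem glAut_refl_863 (k : Type) [Field k] :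
    glAut (RingEquiv.refl k) = MonoidHom.id (GL (Fin 2) k) := by
  unfold glAut
  exact Matrix.GeneralLinearGroup.map_id

theorem inTwCentC_refl_863 (k : Type) [Field k] [Valued k Γ₀] :
    InTwCentC (RingEquiv.refl k)
      = fun (z t : GL (Fin 2) k) => t⁻¹ * z * t = z ∧ Cpt863 t := by
  funext z t
  apply propext
  unfold InTwCentC InTwCent Cpt863
  rw [glAut_refl_863]
  rfl

/-- **T6.16, `SplitMatchC`.** -/
theorem splitMatchC_863 : SplitMatchC := by
  intro k _ _ q l _ _ n φ f hbi hfs hf δ c c' hreg hc hc'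
  have hmul : ∀ z : GL (Fin 2) k, (∃ g : GL (Fin 2) k, z = g⁻¹ * nm863 δ * g) →
      CptMul863 (Cpt863 (k := k)) z := by
    rintro z ⟨g, rfl⟩
    apply cptMul_863
    unfold IsReg
    rw [disc_conj_863]
    exact hreg
  have hc1 : IsOrbSumGen (shift863 l)
      (fun u : Fin l → GL (Fin 2) k => ∀ j, u j ∈ Ugrp863 (k := k) n)
      (fun y t => t⁻¹ * y * shift863 l t = y ∧ ∀ j, Cpt863 (t j)) (tensor863 φ l) δ c := hc
  have hc2 : IsOrbSumGen (MonoidHom.id (GL (Fin 2) k)) (fun u => u ∈ Ugrp863 (k := k) n)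
      (fun z t => t⁻¹ * z * t = z ∧ Cpt863 t) f (nm863 δ) c' := by
    have h := hc'
    unfold IsOrbSum IsTwOrbSum at h
    rw [inTwCentC_refl_863, glAut_refl_863] at h
    exact h
  exact split_match_abs_863 (Ugrp863 (k := k) n) Cpt863 (cptData_863 n) φ f hbi hfs hf δ hmul
    c c' hc1 hc2

end Fermat.Agent.LT.T6.H863

end
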