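import Mathlib
import Fermat.Agent.LT.T6.H683.DarbouxSpec

/-!
# Row LT, tower T6, leaf T6.22.B.4 (`DbMonoC683`) -- helper863, OFF-MAIN

**`dbMonoC_863 : Fermat.Agent.LT.T6.H683.DbMonoC683`**, VERBATIM against
`Fermat/Agent/LT/T6/H683/DarbouxSpec.lean` (helper683, sha256 5201439e...).

The Darboux identity for the monomials `cosh ^ k` from the smooth case and linearity:

* `k = 0`: `1 = L F₀`, `F₀ = log (1 + x)` (`n = 0`), `F₀ = log (1 + x) / 2 - 1 / (1 + x)`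
  (`n = ± 1`);
* `k = 1`: `L x = 2 x` (`n = 0`), `L x = 3 x - 1` (`n = ± 1`);
* `k = m + 2`: `L x^{m+2} = (m+2)(m+3) x^{m+2} - (m+2)(m+1) x^m` (`n = 0`),
  `L x^{m+2} = (m+2)(m+4) x^{m+2} - (m+2) x^{m+1} - (m+2)(m+1) x^m` (`n = ± 1`).

Mathlib + the frozen Spec closure only; every proof is complete.
-/

set_option autoImplicit false

noncomputable section

namespace Fermat.Agent.LT.T6.H863

open Fermat.Agent.LT.T6 Fermat.Agent.LT.T6.H888 Fermat.Agent.LT.T6.H683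

/-- The smooth case, for a function given by an explicit formula. -/
theorem db_of_smooth_863 (hS : DbSmoothC683) (n : ℤ) (hn : n = 0 ∨ n = 1 ∨ n = -1)
    (F F' F'' : ℝ → ℝ) (hF : ∀ x : ℝ, 0 < x → HasDerivAt F (F' x) x)
    (hF' : ∀ x : ℝ, 0 < x → HasDerivAt F' (F'' x) x) (hF'' : ContinuousOn F'' (Set.Ioi 0))
    (g : ℝ → ℂ) (hg : ∀ q : ℝ, g q = ((lop683 n F' F'' (Real.cosh q) : ℝ) : ℂ)) :
    DarbouxAt683 n g := by
  have h := hS n hn F F' F'' hF hF' hF''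
  have e : g = fun q => ((lop683 n F' F'' (Real.cosh q) : ℝ) : ℂ) := funext hg
  rw [e]
  exact h

theorem lop_zero_863 (F' F'' : ℝ → ℝ) (x : ℝ) :
    lop683 0 F' F'' x = (x ^ 2 - 1) * F'' x + 2 * x * F' x := by
  unfold lop683
  rw [if_pos rfl]

theorem lop_ne_863 (n : ℤ) (hn : n ≠ 0) (F' F'' : ℝ → ℝ) (x : ℝ) :
    lop683 n F' F'' x = (x ^ 2 - 1) * F'' x + (3 * x - 1) * F' x := by
  unfold lop683
  rw [if_neg hn]

theorem hda_863 (x : ℝ) : HasDerivAt (fun y : ℝ => 1 + y) 1 x :=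
  (hasDerivAt_id x).const_add 1

theorem hda2_863 (x : ℝ) : HasDerivAt (fun y : ℝ => (1 + y) ^ 2) (2 * (1 + x)) x := by
  have h : HasDerivAt (fun y : ℝ => (1 + y) * (1 + y)) (1 * (1 + x) + (1 + x) * 1) x :=
    (hda_863 x).mul (hda_863 x)
  have e : (fun y : ℝ => (1 + y) ^ 2) = fun y : ℝ => (1 + y) * (1 + y) := by
    funext y
    ring
  rw [e]
  exact h.congr_deriv (by ring)

theorem hpow_863 (m : ℕ) (x : ℝ) :
    HasDerivAt (fun x : ℝ => x ^ (m + 2)) (((m : ℝ) + 2) * x ^ (m + 1)) x := by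
  have h := hasDerivAt_pow (m + 2) x
  have e : m + 2 - 1 = m + 1 := rfl
  rw [e] at h
  exact h.congr_deriv (by push_cast; ring)

theorem hpow'_863 (m : ℕ) (x : ℝ) :
    HasDerivAt (fun x : ℝ => ((m : ℝ) + 2) * x ^ (m + 1))
      (((m : ℝ) + 2) * (((m : ℝ) + 1) * x ^ m)) x := by
  have h := (hasDerivAt_pow (m + 1) x).const_mul ((m : ℝ) + 2)
  have e : m + 1 - 1 = m := rfl
  rw [e] at h
  exact h.congr_deriv (by push_cast; ring)

theorem cont_mono_863 (k : ℕ) :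
    ContinuousOn (fun q : ℝ => ((Real.cosh q ^ k : ℝ) : ℂ)) (Set.Ici 0) :=
  (continuous_mono683 k).continuousOn

/-! ### `k = 0` -/

/-- `k = 0`, `n = 0`. -/
theorem db_const_zero_863 (hS : DbSmoothC683) :
    DarbouxAt683 0 (fun q => ((Real.cosh q ^ 0 : ℝ) : ℂ)) := by
  refine db_of_smooth_863 hS 0 (Or.inl rfl) (fun x => Real.log (1 + x)) (fun x => (1 + x)⁻¹)
    (fun x => -((1 + x) ^ 2)⁻¹) ?_ ?_ ?_ _ ?_
  · intro x hx
    have hx1 : (1 : ℝ) + x ≠ 0 := by positivity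
    have h : HasDerivAt (fun y : ℝ => Real.log (1 + y)) (1 / (1 + x)) x :=
      (hda_863 x).log hx1
    exact h.congr_deriv (by field_simp)
  · intro x hx
    have hx1 : (1 : ℝ) + x ≠ 0 := by positivity
    have h : HasDerivAt (fun y : ℝ => (1 + y)⁻¹) (-1 / (1 + x) ^ 2) x := (hda_863 x).inv hx1
    exact h.congr_deriv (by field_simp)
  · refine ContinuousOn.neg (ContinuousOn.inv₀ (by fun_prop) ?_)
    intro x hx
    have : (0 : ℝ) < x := hx
    positivity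
  · intro q
    have hc : (1 : ℝ) + Real.cosh q ≠ 0 := by
      have := Real.cosh_pos q
      positivity
    rw [lop_zero_863]
    congr 1
    field_simp
    ring

/-- `k = 0`, `n ≠ 0`. -/
theorem db_const_ne_863 (hS : DbSmoothC683) (n : ℤ) (hn : n = 0 ∨ n = 1 ∨ n = -1)
    (hn0 : n ≠ 0) : DarbouxAt683 n (fun q => ((Real.cosh q ^ 0 : ℝ) : ℂ)) := by
  refine db_of_smooth_863 hS n hn (fun x => Real.log (1 + x) / 2 - (1 + x)⁻¹)
    (fun x => (1 + x)⁻¹ / 2 + ((1 + x) ^ 2)⁻¹)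
    (fun x => -((1 + x) ^ 2)⁻¹ / 2 - 2 * ((1 + x) ^ 3)⁻¹) ?_ ?_ ?_ _ ?_
  · intro x hx
    have hx1 : (1 : ℝ) + x ≠ 0 := by positivity
    have h1 : HasDerivAt (fun y : ℝ => Real.log (1 + y) / 2) (1 / (1 + x) / 2) x :=
      ((hda_863 x).log hx1).div_const 2
    have h2 : HasDerivAt (fun y : ℝ => (1 + y)⁻¹) (-1 / (1 + x) ^ 2) x := (hda_863 x).inv hx1
    have h : HasDerivAt (fun y : ℝ => Real.log (1 + y) / 2 - (1 + y)⁻¹)
        (1 / (1 + x) / 2 - -1 / (1 + x) ^ 2) x := h1.sub h2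
    exact h.congr_deriv (by field_simp; ring)
  · intro x hx
    have hx1 : (1 : ℝ) + x ≠ 0 := by positivity
    have h1 : HasDerivAt (fun y : ℝ => (1 + y)⁻¹ / 2) (-1 / (1 + x) ^ 2 / 2) x :=
      ((hda_863 x).inv hx1).div_const 2
    have h2 : HasDerivAt (fun y : ℝ => ((1 + y) ^ 2)⁻¹)
        (-(2 * (1 + x)) / ((1 + x) ^ 2) ^ 2) x := (hda2_863 x).inv (pow_ne_zero 2 hx1)
    have h : HasDerivAt (fun y : ℝ => (1 + y)⁻¹ / 2 + ((1 + y) ^ 2)⁻¹)
        (-1 / (1 + x) ^ 2 / 2 + -(2 * (1 + x)) / ((1 + x) ^ 2) ^ 2) x := h1.add h2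
    exact h.congr_deriv (by field_simp; ring)
  · have h1 : ContinuousOn (fun x : ℝ => ((1 + x) ^ 2)⁻¹) (Set.Ioi 0) := by
      refine ContinuousOn.inv₀ (by fun_prop) ?_
      intro x hx
      have : (0 : ℝ) < x := hx
      positivity
    have h2 : ContinuousOn (fun x : ℝ => ((1 + x) ^ 3)⁻¹) (Set.Ioi 0) := by
      refine ContinuousOn.inv₀ (by fun_prop) ?_
      intro x hx
      have : (0 : ℝ) < x := hx
      positivity
    exact ((h1.neg).div_const 2).sub (continuousOn_const.mul h2)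
  · intro q
    have hc : (1 : ℝ) + Real.cosh q ≠ 0 := by
      have := Real.cosh_pos q
      positivity
    rw [lop_ne_863 n hn0]
    congr 1
    field_simp
    ring

theorem db_const_863 (hS : DbSmoothC683) (n : ℤ) (hn : n = 0 ∨ n = 1 ∨ n = -1) :
    DarbouxAt683 n (fun q => ((Real.cosh q ^ 0 : ℝ) : ℂ)) := by
  by_cases hn0 : n = 0
  · subst hn0
    exact db_const_zero_863 hS
  · exact db_const_ne_863 hS n hn hn0

/-! ### `k = 1` -/

theorem db_one_863 (hS : DbSmoothC683) (hLin : DbLinC683) (n : ℤ)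
    (hn : n = 0 ∨ n = 1 ∨ n = -1) :
    DarbouxAt683 n (fun q => ((Real.cosh q ^ 1 : ℝ) : ℂ)) := by
  have h0 := db_const_863 hS n hn
  have hF : ∀ x : ℝ, 0 < x → HasDerivAt (fun x : ℝ => x) ((fun _ : ℝ => (1 : ℝ)) x) x :=
    fun x _ => hasDerivAt_id x
  have hF' : ∀ x : ℝ, 0 < x →
      HasDerivAt (fun _ : ℝ => (1 : ℝ)) ((fun _ : ℝ => (0 : ℝ)) x) x :=
    fun x _ => hasDerivAt_const x 1
  have hF'' : ContinuousOn (fun _ : ℝ => (0 : ℝ)) (Set.Ioi 0) := continuousOn_const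
  by_cases hn0 : n = 0
  · subst hn0
    have hg : DarbouxAt683 0 (fun q => (((2 : ℝ) * Real.cosh q : ℝ) : ℂ)) := by
      refine db_of_smooth_863 hS 0 hn _ _ _ hF hF' hF'' _ (fun q => ?_)
      rw [lop_zero_863]
      congr 1
      ring
    have hgc : ContinuousOn (fun q : ℝ => (((2 : ℝ) * Real.cosh q : ℝ) : ℂ)) (Set.Ici 0) :=
      (Complex.continuous_ofReal.comp (by fun_prop)).continuousOn
    have h := hLin 0 hn _ _ hgc (cont_mono_863 0) (1 / 2) 0 hg h0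
    have e : (fun q : ℝ => ((Real.cosh q ^ 1 : ℝ) : ℂ))
        = fun q => (1 / 2 : ℂ) * (((2 : ℝ) * Real.cosh q : ℝ) : ℂ)
            + 0 * ((Real.cosh q ^ 0 : ℝ) : ℂ) := by
      funext q
      push_cast
      ring
    rw [e]
    exact h
  · have hg : DarbouxAt683 n (fun q => (((3 : ℝ) * Real.cosh q - 1 : ℝ) : ℂ)) := by
      refine db_of_smooth_863 hS n hn _ _ _ hF hF' hF'' _ (fun q => ?_)
      rw [lop_ne_863 n hn0]
      congr 1
      ring
    have hgc : ContinuousOn (fun q : ℝ => (((3 : ℝ) * Real.cosh q - 1 : ℝ) : ℂ))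
        (Set.Ici 0) :=
      (Complex.continuous_ofReal.comp (by fun_prop)).continuousOn
    have h := hLin n hn _ _ hgc (cont_mono_863 0) (1 / 3) (1 / 3) hg h0
    have e : (fun q : ℝ => ((Real.cosh q ^ 1 : ℝ) : ℂ))
        = fun q => (1 / 3 : ℂ) * (((3 : ℝ) * Real.cosh q - 1 : ℝ) : ℂ)
            + (1 / 3 : ℂ) * ((Real.cosh q ^ 0 : ℝ) : ℂ) := by
      funext q
      push_cast
      ring
    rw [e]
    exact h

/-! ### `k = m + 2` -/

theorem db_step_863 (hS : DbSmoothC683) (hLin : DbLinC683) (n : ℤ)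
    (hn : n = 0 ∨ n = 1 ∨ n = -1) (m : ℕ)
    (hm : DarbouxAt683 n (fun q => ((Real.cosh q ^ m : ℝ) : ℂ)))
    (hm1 : DarbouxAt683 n (fun q => ((Real.cosh q ^ (m + 1) : ℝ) : ℂ))) :
    DarbouxAt683 n (fun q => ((Real.cosh q ^ (m + 2) : ℝ) : ℂ)) := by
  have hF : ∀ x : ℝ, 0 < x →
      HasDerivAt (fun x : ℝ => x ^ (m + 2)) ((fun x : ℝ => ((m : ℝ) + 2) * x ^ (m + 1)) x) x :=
    fun x _ => hpow_863 m x
  have hF' : ∀ x : ℝ, 0 < x →
      HasDerivAt (fun x : ℝ => ((m : ℝ) + 2) * x ^ (m + 1))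
        ((fun x : ℝ => ((m : ℝ) + 2) * (((m : ℝ) + 1) * x ^ m)) x) x :=
    fun x _ => hpow'_863 m x
  have hF'' : ContinuousOn (fun x : ℝ => ((m : ℝ) + 2) * (((m : ℝ) + 1) * x ^ m))
      (Set.Ioi 0) := by fun_prop
  have hm2 : ((m : ℂ) + 2) ≠ 0 := by
    have h : ((m : ℂ) + 2) = ((m + 2 : ℕ) : ℂ) := by push_cast; ring
    rw [h]
    exact Nat.cast_ne_zero.mpr (by omega)
  have hm3 : ((m : ℂ) + 3) ≠ 0 := by
    have h : ((m : ℂ) + 3) = ((m + 3 : ℕ) : ℂ) := by push_cast; ring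
    rw [h]
    exact Nat.cast_ne_zero.mpr (by omega)
  have hm4 : ((m : ℂ) + 4) ≠ 0 := by
    have h : ((m : ℂ) + 4) = ((m + 4 : ℕ) : ℂ) := by push_cast; ring
    rw [h]
    exact Nat.cast_ne_zero.mpr (by omega)
  by_cases hn0 : n = 0
  · subst hn0
    have hg : DarbouxAt683 0 (fun q => (((((m : ℝ) + 2) * ((m : ℝ) + 3)) * Real.cosh q ^ (m + 2)
        - (((m : ℝ) + 2) * ((m : ℝ) + 1)) * Real.cosh q ^ m : ℝ) : ℂ)) := by
      refine db_of_smooth_863 hS 0 hn _ _ _ hF hF' hF'' _ (fun q => ?_)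
      rw [lop_zero_863]
      congr 1
      ring
    have hgc : ContinuousOn (fun q : ℝ =>
        (((((m : ℝ) + 2) * ((m : ℝ) + 3)) * Real.cosh q ^ (m + 2)
          - (((m : ℝ) + 2) * ((m : ℝ) + 1)) * Real.cosh q ^ m : ℝ) : ℂ)) (Set.Ici 0) :=
      (Complex.continuous_ofReal.comp (by fun_prop)).continuousOn
    have h := hLin 0 hn _ _ hgc (cont_mono_863 m)
      (1 / (((m : ℂ) + 2) * ((m : ℂ) + 3))) (((m : ℂ) + 1) / ((m : ℂ) + 3)) hg hm
    have e : (fun q : ℝ => ((Real.cosh q ^ (m + 2) : ℝ) : ℂ))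
        = fun q => (1 / (((m : ℂ) + 2) * ((m : ℂ) + 3)))
            * (((((m : ℝ) + 2) * ((m : ℝ) + 3)) * Real.cosh q ^ (m + 2)
              - (((m : ℝ) + 2) * ((m : ℝ) + 1)) * Real.cosh q ^ m : ℝ) : ℂ)
          + (((m : ℂ) + 1) / ((m : ℂ) + 3)) * ((Real.cosh q ^ m : ℝ) : ℂ) := by
      funext q
      push_cast
      field_simp
      ring
    rw [e]
    exact h
  · have hg : DarbouxAt683 n (fun q => (((((m : ℝ) + 2) * ((m : ℝ) + 4)) * Real.cosh q ^ (m + 2)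
        - ((m : ℝ) + 2) * Real.cosh q ^ (m + 1)
        - (((m : ℝ) + 2) * ((m : ℝ) + 1)) * Real.cosh q ^ m : ℝ) : ℂ)) := by
      refine db_of_smooth_863 hS n hn _ _ _ hF hF' hF'' _ (fun q => ?_)
      rw [lop_ne_863 n hn0]
      congr 1
      ring
    have hgc : ContinuousOn (fun q : ℝ =>
        (((((m : ℝ) + 2) * ((m : ℝ) + 4)) * Real.cosh q ^ (m + 2)
          - ((m : ℝ) + 2) * Real.cosh q ^ (m + 1)
          - (((m : ℝ) + 2) * ((m : ℝ) + 1)) * Real.cosh q ^ m : ℝ) : ℂ)) (Set.Ici 0) :=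
      (Complex.continuous_ofReal.comp (by fun_prop)).continuousOn
    -- the lower order part
    have hlow := hLin n hn _ _ (cont_mono_863 (m + 1)) (cont_mono_863 m)
      (1 / ((m : ℂ) + 4)) (((m : ℂ) + 1) / ((m : ℂ) + 4)) hm1 hm
    have hlowc : ContinuousOn (fun q : ℝ =>
        (1 / ((m : ℂ) + 4)) * ((Real.cosh q ^ (m + 1) : ℝ) : ℂ)
          + (((m : ℂ) + 1) / ((m : ℂ) + 4)) * ((Real.cosh q ^ m : ℝ) : ℂ)) (Set.Ici 0) :=
      ((continuous_const.mul (continuous_mono683 (m + 1))).add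
        (continuous_const.mul (continuous_mono683 m))).continuousOn
    have h := hLin n hn _ _ hgc hlowc (1 / (((m : ℂ) + 2) * ((m : ℂ) + 4))) 1 hg hlow
    have e : (fun q : ℝ => ((Real.cosh q ^ (m + 2) : ℝ) : ℂ))
        = fun q => (1 / (((m : ℂ) + 2) * ((m : ℂ) + 4)))
            * (((((m : ℝ) + 2) * ((m : ℝ) + 4)) * Real.cosh q ^ (m + 2)
              - ((m : ℝ) + 2) * Real.cosh q ^ (m + 1)
              - (((m : ℝ) + 2) * ((m : ℝ) + 1)) * Real.cosh q ^ m : ℝ) : ℂ)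
          + 1 * ((1 / ((m : ℂ) + 4)) * ((Real.cosh q ^ (m + 1) : ℝ) : ℂ)
            + (((m : ℂ) + 1) / ((m : ℂ) + 4)) * ((Real.cosh q ^ m : ℝ) : ℂ)) := by
      funext q
      push_cast
      field_simp
      ring
    rw [e]
    exact h

/-- **Leaf D.4 (MONOMIALS), `DbMonoC683`.** -/
theorem dbMonoC_863 : DbMonoC683 := by
  intro hS hLin n hn k
  have hall : ∀ m : ℕ, DarbouxAt683 n (fun q => ((Real.cosh q ^ m : ℝ) : ℂ)) ∧
      DarbouxAt683 n (fun q => ((Real.cosh q ^ (m + 1) : ℝ) : ℂ)) := by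
    intro m
    induction m with
    | zero => exact ⟨db_const_863 hS n hn, db_one_863 hS hLin n hn⟩
    | succ m ih => exact ⟨ih.2, db_step_863 hS hLin n hn m ih.1 ih.2⟩
  exact (hall k).1

end Fermat.Agent.LT.T6.H863

end
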