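import Mathlib
import Fermat.Agent.LT.T6.H783.DescSpec
import Fermat.Agent.LT.T6.H863.Tw

/-!
# Row LT, tower T6, leaf T6.18g2-P1 (`RootBoundC783`) -- helper863, OFF-MAIN

**`rootBoundC_863 : Fermat.Agent.LT.T6.H783.RootBoundC783`**, VERBATIM against
`Fermat/Agent/LT/T6/H783/DescSpec.lean` (helper783, sha256 efb33450...).

`k'/k` cyclic of prime degree `l` with generator `s`, `h ∈ GL₂(k)` with `(tr h, det h)` close to
`(2, 1)`, `x ∈ GL₂(k')`, `w = x⁻¹ h s(x)` with bounded entries: then the cocycle `x⁻¹ s(x)` has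
bounded entries.

Proof (Cayley--Hamilton, no root extraction): `N w = w s(w) ⋯ s^{l-1}(w) = x⁻¹ h^l x = M^l`,
`M = x⁻¹ h x`; `M^l = S M + Q` with `S = P_l(t, d)`, `Q = Q_l(t, d)`, `(t, d) = (tr h, det h)`,
`P_0 = 0`, `Q_0 = 1`, `P_{j+1} = t P_j + Q_j`, `Q_{j+1} = - d P_j`; `P_j ≡ j`, `Q_j ≡ 1 - j`
modulo `(t - 2, d - 1)`, so `v(S) = v(l)` for `(t, d)` close to `(2, 1)`, and
`M = S⁻¹ (N w - Q)` is bounded; `det M` is a unit, so `M⁻¹` is bounded; `x⁻¹ s(x) = M⁻¹ w`.

Mathlib + `T6/Spec.lean` + `T6/H783/{BadSpec,CenSpec,DescSpec}.lean` (frozen) only; every proof is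
complete.
-/

set_option autoImplicit false

set_option linter.unusedSectionVars false

open scoped Classical

noncomputable section

namespace Fermat.Agent.LT.T6.H863

open Fermat.Agent.LT.T6 Fermat.Agent.LT.T6.H783

/-! ### Cayley--Hamilton for `2 × 2` matrices -/

section CH

variable {R : Type} [CommRing R]

theorem ch2_863 (M : Matrix (Fin 2) (Fin 2) R) :
    M * M = M.trace • M - M.det • (1 : Matrix (Fin 2) (Fin 2) R) := by
  ext a b
  fin_cases a <;> fin_cases b <;>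
    simp [Matrix.mul_apply, Fin.sum_univ_two, Matrix.trace_fin_two, Matrix.det_fin_two] <;> ring

/-- The coefficients `(P_j, Q_j)` of `M^j = P_j M + Q_j`. -/
def chP863 (t d : R) : ℕ → R × R
  | 0 => (0, 1)
  | (j + 1) => (t * (chP863 t d j).1 + (chP863 t d j).2, -(d * (chP863 t d j).1))

theorem chP863_zero (t d : R) : chP863 t d 0 = (0, 1) := rfl

theorem chP863_succ (t d : R) (j : ℕ) :
    chP863 t d (j + 1) = (t * (chP863 t d j).1 + (chP863 t d j).2, -(d * (chP863 t d j).1)) := rfl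

theorem pow_eq_chP_863 (M : Matrix (Fin 2) (Fin 2) R) (j : ℕ) :
    M ^ j = (chP863 M.trace M.det j).1 • M
      + (chP863 M.trace M.det j).2 • (1 : Matrix (Fin 2) (Fin 2) R) := by
  induction j with
  | zero => simp [chP863_zero]
  | succ j ih =>
    rw [pow_succ, ih, chP863_succ]
    simp only
    rw [add_mul, smul_mul_assoc, smul_mul_assoc, one_mul, ch2_863]
    module

end CH

/-! ### Valuations -/

section Val

variable {K : Type} [Field K] [Valued K Γ₀]

theorem val_natCast_le_863 (n : ℕ) : Valued.v ((n : K)) ≤ 1 := by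
  induction n with
  | zero => simp
  | succ n ih =>
    rw [Nat.cast_succ]
    exact Valuation.map_add_le _ ih (le_of_eq (map_one _))

theorem chP_est_863 (t d : K) (ε : Γ₀) (hε : ε ≤ 1) (ht : Valued.v (t - 2) ≤ ε)
    (hd : Valued.v (d - 1) ≤ ε) (j : ℕ) :
    Valued.v ((chP863 t d j).1 - (j : K)) ≤ ε ∧
      Valued.v ((chP863 t d j).2 + (j : K) - 1) ≤ ε := by
  have h2 : Valued.v (2 : K) ≤ 1 := by
    have := val_natCast_le_863 (K := K) 2
    simpa using this
  have ht1 : Valued.v t ≤ 1 := by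
    have : t = (t - 2) + 2 := by ring
    rw [this]
    exact Valuation.map_add_le _ (ht.trans hε) h2
  have hd1 : Valued.v d ≤ 1 := by
    have : d = (d - 1) + 1 := by ring
    rw [this]
    exact Valuation.map_add_le _ (hd.trans hε) (le_of_eq (map_one _))
  induction j with
  | zero =>
    rw [chP863_zero]
    simp
  | succ j ih =>
    obtain ⟨ih1, ih2⟩ := ih
    rw [chP863_succ]
    simp only
    have hj : Valued.v ((j : K)) ≤ 1 := val_natCast_le_863 j
    constructor
    · have e1 : t * (chP863 t d j).1 + (chP863 t d j).2 - ((j + 1 : ℕ) : K)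
          = t * ((chP863 t d j).1 - (j : K)) + (t - 2) * (j : K)
            + ((chP863 t d j).2 + (j : K) - 1) := by
        push_cast
        ring
      rw [e1]
      refine Valuation.map_add_le _ (Valuation.map_add_le _ ?_ ?_) ih2
      · rw [map_mul]
        calc Valued.v t * Valued.v ((chP863 t d j).1 - (j : K)) ≤ 1 * ε := mul_le_mul' ht1 ih1
          _ = ε := one_mul _
      · rw [map_mul]
        calc Valued.v (t - 2) * Valued.v ((j : K)) ≤ ε * 1 := mul_le_mul' ht hj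
          _ = ε := mul_one _
    · have e2 : -(d * (chP863 t d j).1) + ((j + 1 : ℕ) : K) - 1
          = -(d * ((chP863 t d j).1 - (j : K))) - (d - 1) * (j : K) := by
        push_cast
        ring
      rw [e2]
      refine Valuation.map_sub_le _ ?_ ?_
      · rw [Valuation.map_neg, map_mul]
        calc Valued.v d * Valued.v ((chP863 t d j).1 - (j : K)) ≤ 1 * ε := mul_le_mul' hd1 ih1
          _ = ε := one_mul _
      · rw [map_mul]
        calc Valued.v (d - 1) * Valued.v ((j : K)) ≤ ε * 1 := mul_le_mul' hd hj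
          _ = ε := mul_one _

/-! ### Bounded entries -/

/-- The entries of `M` are bounded by `B`. -/
def EBdd863 (B : Γ₀) (M : Matrix (Fin 2) (Fin 2) K) : Prop :=
  ∀ a b : Fin 2, Valued.v (M a b) ≤ B

theorem ebdd_mono_863 (B B' : Γ₀) (hBB' : B ≤ B') (M : Matrix (Fin 2) (Fin 2) K)
    (h : EBdd863 B M) : EBdd863 B' M := fun a b => (h a b).trans hBB'

theorem ebdd_one_863 : EBdd863 (1 : Γ₀) (1 : Matrix (Fin 2) (Fin 2) K) := by
  intro a b
  by_cases hab : a = b
  · rw [hab, Matrix.one_apply_eq, map_one]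
  · rw [Matrix.one_apply_ne hab, map_zero]
    exact zero_le

theorem ebdd_mul_863 (B B' : Γ₀) (M M' : Matrix (Fin 2) (Fin 2) K) (h : EBdd863 B M)
    (h' : EBdd863 B' M') : EBdd863 (B * B') (M * M') := by
  intro a b
  rw [Matrix.mul_apply]
  refine Valuation.map_sum_le _ (fun m _ => ?_)
  rw [map_mul]
  exact mul_le_mul' (h a m) (h' m b)

theorem glAut_apply_863 (s : K ≃+* K) (g : GL (Fin 2) K) (a b : Fin 2) :
    ((glAut s g : GL (Fin 2) K) : Matrix (Fin 2) (Fin 2) K) a b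
      = s ((g : Matrix (Fin 2) (Fin 2) K) a b) := by
  unfold glAut
  rfl

theorem ebdd_twN_863 (s : K ≃+* K) (hs : ∀ y : K, Valued.v (s y) = Valued.v y) (B : Γ₀)
    (w : GL (Fin 2) K) (hw : EBdd863 B (w : Matrix (Fin 2) (Fin 2) K)) (n : ℕ) :
    EBdd863 (B ^ n) ((twN (glAut s) n w : GL (Fin 2) K) : Matrix (Fin 2) (Fin 2) K) := by
  induction n with
  | zero =>
    rw [pow_zero, twN_zero_863]
    exact ebdd_one_863
  | succ n ih =>
    rw [twN_succ_863, Matrix.GeneralLinearGroup.coe_mul, pow_succ']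
    refine ebdd_mul_863 _ _ _ _ hw ?_
    intro a b
    rw [glAut_apply_863, hs]
    exact ih a b

theorem coe_inv_mul_rb863 (g : GL (Fin 2) K) :
    ((g⁻¹ : GL (Fin 2) K) : Matrix (Fin 2) (Fin 2) K) * (g : Matrix (Fin 2) (Fin 2) K) = 1 := by
  rw [← Matrix.GeneralLinearGroup.coe_mul, inv_mul_cancel]
  rfl

theorem coe_mul_inv_rb863 (g : GL (Fin 2) K) :
    (g : Matrix (Fin 2) (Fin 2) K) * ((g⁻¹ : GL (Fin 2) K) : Matrix (Fin 2) (Fin 2) K) = 1 := by
  rw [← Matrix.GeneralLinearGroup.coe_mul, mul_inv_cancel]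
  rfl

/-- The entries of `g⁻¹` times `det g` are, up to sign, the entries of `g`. -/
theorem ebdd_inv_863 (g : GL (Fin 2) K)
    (hdet : Valued.v (g : Matrix (Fin 2) (Fin 2) K).det = 1) (B : Γ₀)
    (h : EBdd863 B (g : Matrix (Fin 2) (Fin 2) K)) :
    EBdd863 B ((g⁻¹ : GL (Fin 2) K) : Matrix (Fin 2) (Fin 2) K) := by
  have h' := coe_inv_mul_rb863 g
  set A : Matrix (Fin 2) (Fin 2) K := (g : Matrix (Fin 2) (Fin 2) K) with hA
  set C : Matrix (Fin 2) (Fin 2) K := ((g⁻¹ : GL (Fin 2) K) : Matrix (Fin 2) (Fin 2) K) with hC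
  have f00 := congrFun (congrFun h' 0) 0
  have f11 := congrFun (congrFun h' 1) 1
  have f01 := congrFun (congrFun h' 0) 1
  have f10 := congrFun (congrFun h' 1) 0
  simp only [Matrix.mul_apply, Fin.sum_univ_two, Matrix.one_apply_eq, ne_eq, zero_ne_one,
    not_false_eq_true, one_ne_zero, Matrix.one_apply_ne] at f00 f11 f01 f10
  rw [Matrix.det_fin_two] at hdet
  have k00 : C 0 0 * (A 0 0 * A 1 1 - A 0 1 * A 1 0) = A 1 1 := by
    linear_combination (A 1 1) * f00 - (A 1 0) * f01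
  have k11 : C 1 1 * (A 0 0 * A 1 1 - A 0 1 * A 1 0) = A 0 0 := by
    linear_combination (A 0 0) * f11 - (A 0 1) * f10
  have k01 : C 0 1 * (A 0 0 * A 1 1 - A 0 1 * A 1 0) = -A 0 1 := by
    linear_combination (A 0 0) * f01 - (A 0 1) * f00
  have k10 : C 1 0 * (A 0 0 * A 1 1 - A 0 1 * A 1 0) = -A 1 0 := by
    linear_combination (A 1 1) * f10 - (A 1 0) * f11
  have v00 := congrArg Valued.v k00
  have v11 := congrArg Valued.v k11
  have v01 := congrArg Valued.v k01
  have v10 := congrArg Valued.v k10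
  rw [map_mul, hdet, mul_one] at v00 v11 v01 v10
  rw [Valuation.map_neg] at v01 v10
  intro a b
  fin_cases a <;> fin_cases b
  · show Valued.v (C 0 0) ≤ B
    rw [v00]
    exact h 1 1
  · show Valued.v (C 0 1) ≤ B
    rw [v01]
    exact h 0 1
  · show Valued.v (C 1 0) ≤ B
    rw [v10]
    exact h 1 0
  · show Valued.v (C 1 1) ≤ B
    rw [v11]
    exact h 0 0

theorem trace_conj_rb863 (g t : GL (Fin 2) K) :
    ((g⁻¹ * t * g : GL (Fin 2) K) : Matrix (Fin 2) (Fin 2) K).trace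
      = (t : Matrix (Fin 2) (Fin 2) K).trace := by
  rw [Matrix.GeneralLinearGroup.coe_mul, Matrix.GeneralLinearGroup.coe_mul,
    Matrix.trace_mul_comm, ← Matrix.mul_assoc, coe_mul_inv_rb863, Matrix.one_mul]

theorem det_conj_rb863 (g t : GL (Fin 2) K) :
    ((g⁻¹ * t * g : GL (Fin 2) K) : Matrix (Fin 2) (Fin 2) K).det
      = (t : Matrix (Fin 2) (Fin 2) K).det := by
  rw [Matrix.GeneralLinearGroup.coe_mul, Matrix.GeneralLinearGroup.coe_mul, Matrix.det_mul,
    Matrix.det_mul]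
  have h : ((g⁻¹ : GL (Fin 2) K) : Matrix (Fin 2) (Fin 2) K).det
      * (g : Matrix (Fin 2) (Fin 2) K).det = 1 := by
    rw [← Matrix.det_mul, coe_inv_mul_rb863, Matrix.det_one]
  linear_combination (t : Matrix (Fin 2) (Fin 2) K).det * h

/-! ### The twisted norm of `x⁻¹ g s(x)` for `g` fixed by `s` -/

theorem twN_fixed_863 {Γ : Type} [Group Γ] (s : Γ →* Γ) (g : Γ) (hg : s g = g) (n : ℕ) :
    twN s n g = g ^ n := by
  induction n with
  | zero => rw [twN_zero_863, pow_zero]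
  | succ n ih => rw [twN_succ_863, ih, map_pow, hg, pow_succ']

theorem conj_pow_863 {Γ : Type} [Group Γ] (x g : Γ) (n : ℕ) :
    (x⁻¹ * g * x) ^ n = x⁻¹ * g ^ n * x := by
  have := conj_pow (a := x⁻¹) (b := g) (i := n)
  simpa using this

theorem glAut_iterate_863 (s : K ≃+* K) (n : ℕ) (x : GL (Fin 2) K) (a b : Fin 2) :
    ((((glAut s)^[n]) x : GL (Fin 2) K) : Matrix (Fin 2) (Fin 2) K) a b
      = (s ^ n) ((x : Matrix (Fin 2) (Fin 2) K) a b) := by
  induction n with
  | zero => rfl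
  | succ n ih =>
    rw [Function.iterate_succ_apply', glAut_apply_863, ih, pow_succ']
    rfl

theorem glAut_iterate_eq_863 (s : K ≃+* K) (l : ℕ) (hsl : ∀ y : K, (s ^ l) y = y)
    (x : GL (Fin 2) K) : ((glAut s)^[l]) x = x := by
  apply Matrix.GeneralLinearGroup.ext
  intro a b
  rw [glAut_iterate_863, hsl]

/-! ### The core estimate -/

theorem rootBound_core_863 (s : K ≃+* K) (hs : ∀ y : K, Valued.v (s y) = Valued.v y) (l : ℕ)
    (hsl : ∀ y : K, (s ^ l) y = y) (g x : GL (Fin 2) K) (hg : glAut s g = g)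
    (ε : Γ₀) (hε : ε < Valued.v ((l : K)))
    (ht : Valued.v ((g : Matrix (Fin 2) (Fin 2) K).trace - 2) ≤ ε)
    (hd : Valued.v ((g : Matrix (Fin 2) (Fin 2) K).det - 1) ≤ ε)
    (B : Γ₀) (hB1 : 1 ≤ B)
    (hw : EBdd863 B ((x⁻¹ * g * glAut s x : GL (Fin 2) K) : Matrix (Fin 2) (Fin 2) K))
    (hw' : EBdd863 B (((x⁻¹ * g * glAut s x)⁻¹ : GL (Fin 2) K) : Matrix (Fin 2) (Fin 2) K)) :
    EBdd863 ((Valued.v ((l : K)))⁻¹ * B ^ (l + 1))
        ((x⁻¹ * glAut s x : GL (Fin 2) K) : Matrix (Fin 2) (Fin 2) K) ∧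
      EBdd863 ((Valued.v ((l : K)))⁻¹ * B ^ (l + 1))
        (((x⁻¹ * glAut s x)⁻¹ : GL (Fin 2) K) : Matrix (Fin 2) (Fin 2) K) := by
  have hl1 : Valued.v ((l : K)) ≤ 1 := val_natCast_le_863 l
  have hε1 : ε ≤ 1 := hε.le.trans hl1
  have hvl0 : Valued.v ((l : K)) ≠ 0 := ne_of_gt (lt_of_le_of_lt zero_le hε)
  -- the norm
  have hN : twN (glAut s) l (x⁻¹ * g * glAut s x) = (x⁻¹ * g * x) ^ l := by
    rw [twN_conj_863, twN_fixed_863 _ _ hg, glAut_iterate_eq_863 s l hsl, conj_pow_863]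
  have hMl : EBdd863 (B ^ l)
      (((x⁻¹ * g * x : GL (Fin 2) K) : Matrix (Fin 2) (Fin 2) K) ^ l) := by
    have := ebdd_twN_863 s hs B _ hw l
    rw [hN] at this
    have hc : (((x⁻¹ * g * x) ^ l : GL (Fin 2) K) : Matrix (Fin 2) (Fin 2) K)
        = ((x⁻¹ * g * x : GL (Fin 2) K) : Matrix (Fin 2) (Fin 2) K) ^ l :=
      Units.val_pow_eq_pow_val _ l
    rw [hc] at this
    exact this
  have htr := trace_conj_rb863 x g
  have hdt := det_conj_rb863 x g
  obtain ⟨hP, hQ⟩ := chP_est_863 _ _ ε hε1 ht hd l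
  have hpow := pow_eq_chP_863 ((x⁻¹ * g * x : GL (Fin 2) K) : Matrix (Fin 2) (Fin 2) K) l
  rw [htr, hdt] at hpow
  set M : Matrix (Fin 2) (Fin 2) K := ((x⁻¹ * g * x : GL (Fin 2) K) : Matrix (Fin 2) (Fin 2) K)
    with hMdef
  set t : K := (g : Matrix (Fin 2) (Fin 2) K).trace with htdef
  set d : K := (g : Matrix (Fin 2) (Fin 2) K).det with hddef
  set S : K := (chP863 t d l).1 with hSdef
  set Q : K := (chP863 t d l).2 with hQdef
  have hvS : Valued.v S = Valued.v ((l : K)) := by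
    have : S = (l : K) + (S - (l : K)) := by ring
    rw [this]
    exact Valuation.map_add_eq_of_lt_left _ (lt_of_le_of_lt hP hε)
  have hvQ : Valued.v Q ≤ 1 := by
    have : Q = (Q + (l : K) - 1) + (1 - (l : K)) := by ring
    rw [this]
    exact Valuation.map_add_le _ (hQ.trans hε1)
      (Valuation.map_sub_le _ (le_of_eq (map_one _)) hl1)
  have hvd : Valued.v d = 1 := by
    have : d = 1 + (d - 1) := by ring
    rw [this]
    exact Valuation.map_one_add_of_lt _ (lt_of_le_of_lt hd (lt_of_lt_of_le hε hl1))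
  have hBl : 1 ≤ B ^ l := one_le_pow_of_one_le' hB1 l
  have hMb : EBdd863 ((Valued.v ((l : K)))⁻¹ * B ^ l) M := by
    intro a b
    have e := congrFun (congrFun hpow a) b
    simp only [Matrix.add_apply, Matrix.smul_apply, smul_eq_mul] at e
    have e' : S * M a b = (M ^ l) a b - Q * (1 : Matrix (Fin 2) (Fin 2) K) a b := by
      rw [e]
      ring
    have hv : Valued.v (S * M a b) ≤ B ^ l := by
      rw [e']
      refine Valuation.map_sub_le _ (hMl a b) ?_
      rw [map_mul]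
      calc Valued.v Q * Valued.v ((1 : Matrix (Fin 2) (Fin 2) K) a b) ≤ 1 * 1 :=
            mul_le_mul' hvQ (ebdd_one_863 a b)
        _ = 1 := one_mul 1
        _ ≤ B ^ l := hBl
    rw [map_mul, hvS] at hv
    calc Valued.v (M a b)
        = (Valued.v ((l : K)))⁻¹ * (Valued.v ((l : K)) * Valued.v (M a b)) := by
          rw [← mul_assoc, inv_mul_cancel₀ hvl0, one_mul]
      _ ≤ (Valued.v ((l : K)))⁻¹ * B ^ l := mul_le_mul' le_rfl hv
  have hMdet : Valued.v M.det = 1 := by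
    rw [hMdef, hdt]
    exact hvd
  have hMinv := ebdd_inv_863 (x⁻¹ * g * x) hMdet _ hMb
  have e1 : x⁻¹ * glAut s x = (x⁻¹ * g * x)⁻¹ * (x⁻¹ * g * glAut s x) := by group
  have e2 : (x⁻¹ * glAut s x)⁻¹ = (x⁻¹ * g * glAut s x)⁻¹ * (x⁻¹ * g * x) := by group
  constructor
  · rw [e1, Matrix.GeneralLinearGroup.coe_mul]
    have := ebdd_mul_863 _ _ _ _ hMinv hw
    refine ebdd_mono_863 _ _ (le_of_eq ?_) _ this
    rw [pow_succ, mul_assoc]
  · rw [e2, Matrix.GeneralLinearGroup.coe_mul]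
    have := ebdd_mul_863 _ _ _ _ hw' hMb
    refine ebdd_mono_863 _ _ (le_of_eq ?_) _ this
    rw [pow_succ, mul_left_comm, mul_comm B (B ^ l)]

end Val

/-! ### The leaf -/

section Leaf

variable {k k' : Type} [Field k] [Field k'] [Valued k' Γ₀]

theorem map_fixed_863 (i : k →+* k') (s : k' ≃+* k') (hfix : ∀ x : k, s (i x) = i x)
    (h : GL (Fin 2) k) :
    glAut s (Matrix.GeneralLinearGroup.map i h) = Matrix.GeneralLinearGroup.map i h := by
  apply Matrix.GeneralLinearGroup.ext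
  intro a b
  rw [glAut_apply_863, Matrix.GeneralLinearGroup.map_apply, hfix]

theorem trace_map_863 (i : k →+* k') (h : GL (Fin 2) k) :
    ((Matrix.GeneralLinearGroup.map i h : GL (Fin 2) k') : Matrix (Fin 2) (Fin 2) k').trace
      = i (h : Matrix (Fin 2) (Fin 2) k).trace := by
  rw [Matrix.trace_fin_two, Matrix.trace_fin_two, map_add,
    Matrix.GeneralLinearGroup.map_apply, Matrix.GeneralLinearGroup.map_apply]

theorem det_map_863 (i : k →+* k') (h : GL (Fin 2) k) :
    ((Matrix.GeneralLinearGroup.map i h : GL (Fin 2) k') : Matrix (Fin 2) (Fin 2) k').det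
      = i (h : Matrix (Fin 2) (Fin 2) k).det := by
  rw [Matrix.det_fin_two, Matrix.det_fin_two, map_sub, map_mul, map_mul,
    Matrix.GeneralLinearGroup.map_apply, Matrix.GeneralLinearGroup.map_apply,
    Matrix.GeneralLinearGroup.map_apply, Matrix.GeneralLinearGroup.map_apply]

end Leaf

/-- **T6.18g2-P1, `RootBoundC783`.** -/
theorem rootBoundC_863 : RootBoundC783 := by
  intro k k' _ _ _ _ q l e i s hk hk' hext hl
  have hchar : CharZero k' := hk'.char0
  have hl0 : ((l : ℕ) : k') ≠ 0 := Nat.cast_ne_zero.mpr hl.ne_zero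
  have hvl : Valued.v ((l : k')) ≠ 0 := (Valuation.ne_zero_iff _).mpr hl0
  obtain ⟨a, ha⟩ : ∃ a : ℤ, Valued.v ((l : k')) = WithZero.exp (-a) :=
    ⟨-WithZero.log (Valued.v ((l : k'))), by rw [neg_neg, WithZero.exp_log hvl]⟩
  refine ⟨max a 0 + 1, fun A => ⟨a + ((l + 1 : ℕ) : ℤ) * max A 0, fun h x hh hw => ?_⟩⟩
  set ε : Γ₀ := WithZero.exp (-(max a 0 + 1)) with hεdef
  have hε : ε < Valued.v ((l : k')) := by
    rw [ha, hεdef, WithZero.exp_lt_exp]
    have := le_max_left a 0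
    omega
  have hε1 : ε ≤ 1 := by
    rw [hεdef, ← WithZero.exp_zero, WithZero.exp_le_exp]
    have := le_max_right a 0
    omega
  have hpow : ∀ z : k, Valued.v z ≤ ε → Valued.v (i z) ≤ ε := by
    intro z hz
    rw [hext.val_i]
    calc Valued.v z ^ e ≤ ε ^ e := pow_le_pow_left' hz e
      _ ≤ ε := pow_le_of_le_one zero_le hε1 hext.e_pos.ne'
  obtain ⟨hh1, hh2⟩ := hh
  have ht : Valued.v (((Matrix.GeneralLinearGroup.map i h : GL (Fin 2) k') :
      Matrix (Fin 2) (Fin 2) k').trace - 2) ≤ ε := by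
    have e1 : ((Matrix.GeneralLinearGroup.map i h : GL (Fin 2) k') :
        Matrix (Fin 2) (Fin 2) k').trace - 2
        = i ((h : Matrix (Fin 2) (Fin 2) k).trace - 2) := by
      rw [trace_map_863, map_sub, map_ofNat]
    rw [e1]
    exact hpow _ hh1
  have hd : Valued.v (((Matrix.GeneralLinearGroup.map i h : GL (Fin 2) k') :
      Matrix (Fin 2) (Fin 2) k').det - 1) ≤ ε := by
    have e1 : ((Matrix.GeneralLinearGroup.map i h : GL (Fin 2) k') :
        Matrix (Fin 2) (Fin 2) k').det - 1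
        = i ((h : Matrix (Fin 2) (Fin 2) k).det - 1) := by
      rw [det_map_863, map_sub, map_one]
    rw [e1]
    exact hpow _ hh2
  set B : Γ₀ := WithZero.exp (max A 0) with hBdef
  have hB1 : 1 ≤ B := by
    rw [hBdef, ← WithZero.exp_zero, WithZero.exp_le_exp]
    exact le_max_right A 0
  have hAB : WithZero.exp A ≤ B := by
    rw [hBdef, WithZero.exp_le_exp]
    exact le_max_left A 0
  have hw1 : EBdd863 B ((x⁻¹ * Matrix.GeneralLinearGroup.map i h * glAut s x : GL (Fin 2) k') :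
      Matrix (Fin 2) (Fin 2) k') := fun a b => ((hw a b).1).trans hAB
  have hw2 : EBdd863 B (((x⁻¹ * Matrix.GeneralLinearGroup.map i h * glAut s x)⁻¹ :
      GL (Fin 2) k') : Matrix (Fin 2) (Fin 2) k') := fun a b => ((hw a b).2).trans hAB
  obtain ⟨r1, r2⟩ := rootBound_core_863 s hext.val_s l hext.cyc.order
    (Matrix.GeneralLinearGroup.map i h) x (map_fixed_863 i s hext.cyc.fix_i h) ε hε ht hd B hB1
    hw1 hw2
  have hbound : (Valued.v ((l : k')))⁻¹ * B ^ (l + 1)
      = WithZero.exp (a + ((l + 1 : ℕ) : ℤ) * max A 0) := by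
    rw [ha, WithZero.exp_neg, inv_inv, WithZero.exp_add, hBdef, ← WithZero.exp_nsmul,
      nsmul_eq_mul]
  rw [hbound] at r1 r2
  intro c b
  exact ⟨r1 c b, r2 c b⟩

end Fermat.Agent.LT.T6.H863

end
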